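import Mathlib

/-!
# Weak Chebotarev, ALG1: trivial inertia at primes not dividing the discriminant;
a Frobenius element generates the decomposition group.
-/

set_option autoImplicit false

namespace Fermat.Agent.Lib.WeakChebotarev

open NumberField Ideal
open scoped Pointwise

namespace Inertia

lemma span_isPrime {ℓ : ℕ} (hℓ : ℓ.Prime) : (span {(ℓ : ℤ)}).IsPrime :=
  (span_singleton_prime (by exact_mod_cast hℓ.ne_zero)).mpr (Nat.prime_iff_prime_int.mp hℓ)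

lemma span_isMaximal {ℓ : ℕ} (hℓ : ℓ.Prime) : (span {(ℓ : ℤ)}).IsMaximal :=
  (span_isPrime hℓ).isMaximal (by simpa using hℓ.ne_zero)

lemma liesOver {L : Type*} [Field L] [NumberField L] {ℓ : ℕ} (hℓ : ℓ.Prime)
    (Q : Ideal (𝓞 L)) [Q.IsPrime] (hQ : (ℓ : 𝓞 L) ∈ Q) : Q.LiesOver (span {(ℓ : ℤ)}) := by
  refine ⟨(span_isMaximal hℓ).eq_of_le ?_ ?_⟩
  · exact (Ideal.IsPrime.under ℤ Q).ne_top
  · rw [span_singleton_le_iff_mem, Ideal.mem_comap]
    simpa using hQ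

end Inertia

open Inertia

theorem inertia_eq_bot (L : Type*) [Field L] [NumberField L] [IsGalois ℚ L] (ℓ : ℕ)
    (hℓ : ℓ.Prime) (hunr : ¬ (ℓ : ℤ) ∣ discr L) (Q : Ideal (𝓞 L)) [Q.IsPrime]
    (hQ : (ℓ : 𝓞 L) ∈ Q) (g : L ≃ₐ[ℚ] L) (hg : ∀ x : 𝓞 L, g • x - x ∈ Q) : g = 1 := by
  have hp := span_isPrime hℓ
  have hlo := liesOver hℓ Q hQ
  have hun : Algebra.IsUnramifiedIn (𝓞 L) (span {(ℓ : ℤ)}) :=
    (not_dvd_discr_iff_isUnramifiedIn L (𝓞 L) (Nat.prime_iff_prime_int.mp hℓ)).mp hunr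
  have he : Q.ramificationIdx ℤ = 1 := hun.ramificationIdx_eq_one hlo
  have hcard : Nat.card (Q.inertia (L ≃ₐ[ℚ] L)) = 1 := by
    rw [card_inertia_eq_ramificationIdxIn (span {(ℓ : ℤ)}) Q,
      ramificationIdxIn_eq_ramificationIdx (span {(ℓ : ℤ)}) Q (L ≃ₐ[ℚ] L), he]
  have hbot : Q.inertia (L ≃ₐ[ℚ] L) = ⊥ := Subgroup.card_eq_one.mp hcard
  have : g ∈ Q.inertia (L ≃ₐ[ℚ] L) := AddSubgroup.mem_inertia.mpr hg
  rw [hbot] at this
  exact Subgroup.mem_bot.mp this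

namespace Inertia

/-- iterating the Frobenius congruence -/
lemma mk_pow_smul {L : Type*} [Field L] [NumberField L] (ℓ : ℕ) (Q : Ideal (𝓞 L))
    (φ : L ≃ₐ[ℚ] L) (hφ : ∀ x : 𝓞 L, φ • x - x ^ ℓ ∈ Q) (k : ℕ) (x : 𝓞 L) :
    Ideal.Quotient.mk Q (φ ^ k • x) = (Ideal.Quotient.mk Q x) ^ (ℓ ^ k) := by
  induction k generalizing x with
  | zero => simp
  | succ k ih =>
    have h1 : Ideal.Quotient.mk Q (φ • x) = (Ideal.Quotient.mk Q x) ^ ℓ := by
      rw [← map_pow]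
      exact (Ideal.Quotient.mk_eq_mk_iff_sub_mem _ _).mpr (hφ x)
    rw [pow_succ, mul_smul, ih, h1, ← pow_mul, pow_succ, mul_comm]

/-- a finite field all of whose elements satisfy `y ^ (ℓ ^ m) = y` has at most `ℓ ^ m` elements -/
lemma card_le_of_forall_pow_eq {F : Type*} [Field F] [Finite F] {ℓ m : ℕ} (hℓ : 1 < ℓ)
    (hm : m ≠ 0) (h : ∀ y : F, y ^ (ℓ ^ m) = y) : Nat.card F ≤ ℓ ^ m := by
  classical
  have := Fintype.ofFinite F
  have hne : (Polynomial.X ^ ℓ ^ m - Polynomial.X : Polynomial F) ≠ 0 :=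
    FiniteField.X_pow_card_pow_sub_X_ne_zero F hm hℓ
  have hsub : (Finset.univ : Finset F) ⊆
      (Polynomial.X ^ ℓ ^ m - Polynomial.X : Polynomial F).roots.toFinset := by
    intro y _
    rw [Multiset.mem_toFinset, Polynomial.mem_roots hne]
    simp [h y]
  calc Nat.card F = (Finset.univ : Finset F).card := by
        rw [Nat.card_eq_fintype_card, Finset.card_univ]
    _ ≤ (Polynomial.X ^ ℓ ^ m - Polynomial.X : Polynomial F).roots.toFinset.card :=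
        Finset.card_le_card hsub
    _ ≤ Multiset.card (Polynomial.X ^ ℓ ^ m - Polynomial.X : Polynomial F).roots :=
        Multiset.toFinset_card_le _
    _ ≤ (Polynomial.X ^ ℓ ^ m - Polynomial.X : Polynomial F).natDegree :=
        Polynomial.card_roots' _
    _ = ℓ ^ m := FiniteField.X_pow_card_pow_sub_X_natDegree_eq F hm hℓ

end Inertia

theorem zpowers_eq_stabilizer (L : Type*) [Field L] [NumberField L] [IsGalois ℚ L] (ℓ : ℕ)
    (hℓ : ℓ.Prime) (hunr : ¬ (ℓ : ℤ) ∣ discr L) (Q : Ideal (𝓞 L)) [Q.IsPrime]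
    (hQ : (ℓ : 𝓞 L) ∈ Q) (φ : L ≃ₐ[ℚ] L) (hφ : ∀ x : 𝓞 L, φ • x - x ^ ℓ ∈ Q) :
    Subgroup.zpowers φ = MulAction.stabilizer (L ≃ₐ[ℚ] L) Q := by
  have hp := span_isPrime hℓ
  have hlo := liesOver hℓ Q hQ
  have hQ0 : Q ≠ ⊥ := by
    rintro rfl
    have : (ℓ : 𝓞 L) = 0 := by simpa using hQ
    exact hℓ.ne_zero (by exact_mod_cast this)
  have hQmax : Q.IsMaximal := Ideal.IsPrime.isMaximal inferInstance hQ0
  let _ : Field (𝓞 L ⧸ Q) := Ideal.Quotient.field Q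
  have hfin : Finite (𝓞 L ⧸ Q) := Ideal.finiteQuotientOfFreeOfNeBot Q hQ0
  -- `φ` stabilises `Q`
  have hstab : φ ∈ MulAction.stabilizer (L ≃ₐ[ℚ] L) Q := by
    have hcardZ : Nat.card (ℤ ⧸ Q.under ℤ) = ℓ := by
      rw [← hlo.over]
      exact Int.card_ideal_quot ℓ
    have hfrob : IsArithFrobAt ℤ φ Q := by
      intro x
      rw [hcardZ]
      exact hφ x
    exact hfrob.mem_stabilizer
  have hun : Algebra.IsUnramifiedIn (𝓞 L) (span {(ℓ : ℤ)}) :=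
    (not_dvd_discr_iff_isUnramifiedIn L (𝓞 L) (Nat.prime_iff_prime_int.mp hℓ)).mp hunr
  have he : Q.ramificationIdx ℤ = 1 := hun.ramificationIdx_eq_one hlo
  have hcard : Nat.card (MulAction.stabilizer (L ≃ₐ[ℚ] L) Q) = Q.inertiaDeg ℤ := by
    rw [card_stabilizer_eq (span {(ℓ : ℤ)}) Q,
      ramificationIdxIn_eq_ramificationIdx (span {(ℓ : ℤ)}) Q (L ≃ₐ[ℚ] L), he, one_mul,
      inertiaDegIn_eq_inertiaDeg (span {(ℓ : ℤ)}) Q (L ≃ₐ[ℚ] L)]
  have hnorm : Nat.card (𝓞 L ⧸ Q) = ℓ ^ Q.inertiaDeg ℤ := by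
    have := natAbs_pow_inertiaDeg (ℓ : ℤ) Q
    rw [Int.natAbs_natCast] at this
    rw [this]
    rfl
  have hm0 : orderOf φ ≠ 0 := (orderOf_pos φ).ne'
  have hall : ∀ y : 𝓞 L ⧸ Q, y ^ (ℓ ^ orderOf φ) = y := by
    intro y
    obtain ⟨x, rfl⟩ := Ideal.Quotient.mk_surjective y
    rw [← mk_pow_smul ℓ Q φ hφ, pow_orderOf_eq_one, one_smul]
  have hle := card_le_of_forall_pow_eq hℓ.one_lt hm0 hall
  rw [hnorm] at hle
  have hf : Q.inertiaDeg ℤ ≤ orderOf φ := (Nat.pow_le_pow_iff_right hℓ.one_lt).mp hle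
  refine Subgroup.eq_of_le_of_card_ge ((Subgroup.zpowers_le).mpr hstab) ?_
  rw [hcard, Nat.card_zpowers]
  exact hf

end Fermat.Agent.Lib.WeakChebotarev
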