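import Mathlib
import Fermat.Prelude.Def_EllipticCurve_FrobeniusTrace
import Fermat.Agent.Lib.Frobenius

/-!
# Weak Chebotarev: transfer from number fields to valuation subrings of `ℚ̄`

`weak_chebotarev_aux` : given a finite normal `L ⊆ ℚ̄`, a prime `Q` of `𝓞 L` over `ℓ` whose
stabiliser is generated by `σ|L`, with trivial inertia and such that every Frobenius generates
the stabiliser, there is a valuation subring `A` of `ℚ̄` over `ℓ` with the consumer properties.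

`weak_chebotarev_of` : the consumer form of weak Chebotarev from the three number field
statements (taken as hypotheses).
-/

set_option autoImplicit false

namespace Fermat.Agent.Lib.WeakChebotarev

namespace Transfer

open NumberField
open scoped Pointwise
open Fermat.Agent.Lib.Frobenius

local notation "Qbar" => AlgebraicClosure ℚ
local notation "GQ" => (AlgebraicClosure ℚ ≃ₐ[ℚ] AlgebraicClosure ℚ)

/-- A Frobenius element at `A` is congruent to the `ℓ`-th power map on `A`. -/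
theorem sub_pow_mem_nonunits_of_isFrobeniusAt {A : ValuationSubring Qbar} {φ : GQ} {ℓ : ℕ}
    (h : A.IsFrobeniusAt φ ℓ) {x : Qbar} (hx : x ∈ A) : φ x - x ^ ℓ ∈ A.nonunits := by
  obtain ⟨hdec, hφ⟩ := h
  have h1 := hφ (IsLocalRing.residue A ⟨x, hx⟩)
  rw [← IsLocalRing.ResidueField.residue_smul, ← map_pow, ← sub_eq_zero, ← map_sub,
    IsLocalRing.residue_eq_zero_iff, A.valuation_lt_one_iff] at h1
  rw [A.mem_nonunits_iff]
  exact h1

/-- An element of the inertia group at `A` is congruent to the identity on `A`. -/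
theorem sub_mem_nonunits_of_mem_inertiaSubgroupIn {A : ValuationSubring Qbar} {τ : GQ}
    (h : τ ∈ A.inertiaSubgroupIn ℚ) {x : Qbar} (hx : x ∈ A) : τ x - x ∈ A.nonunits := by
  obtain ⟨⟨τ', hdec⟩, hτ, rfl⟩ := h
  have h0 : MulSemiringAction.toRingAut (A.decompositionSubgroup ℚ)
      (IsLocalRing.ResidueField A) ⟨τ', hdec⟩ = 1 := hτ
  have h1 : (⟨τ', hdec⟩ : A.decompositionSubgroup ℚ) • IsLocalRing.residue A ⟨x, hx⟩
      = IsLocalRing.residue A ⟨x, hx⟩ := by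
    have := congrArg (fun f => f (IsLocalRing.residue A ⟨x, hx⟩)) h0
    exact this
  rw [← IsLocalRing.ResidueField.residue_smul, ← sub_eq_zero, ← map_sub,
    IsLocalRing.residue_eq_zero_iff, A.valuation_lt_one_iff] at h1
  rw [A.mem_nonunits_iff]
  exact h1

/-- nonunits of a translated valuation subring. -/
theorem mem_nonunits_smul_iff (g : GQ) (A : ValuationSubring Qbar) (x : Qbar) :
    x ∈ (g • A).nonunits ↔ g⁻¹ x ∈ A.nonunits := by
  rw [ValuationSubring.mem_nonunits_iff_or, ValuationSubring.mem_nonunits_iff_or,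
    ValuationSubring.mem_pointwise_smul_iff_inv_smul_mem]
  have h1 : g⁻¹ x = 0 ↔ x = 0 := map_eq_zero_iff _ (g⁻¹).injective
  have h2 : g⁻¹ • x⁻¹ = (g⁻¹ x)⁻¹ := map_inv₀ (g⁻¹) x
  rw [h1, h2]

section Ideal

variable (L : IntermediateField ℚ Qbar)

/-- the inclusion `𝓞 L → A`. -/
noncomputable def toValuationSubring (A : ValuationSubring Qbar) : 𝓞 L →+* A where
  toFun x := ⟨((x : L) : Qbar), mem_of_isIntegral_int A
    ((RingOfIntegers.isIntegral_coe x).map (IsScalarTower.toAlgHom ℤ L Qbar))⟩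
  map_one' := rfl
  map_mul' _ _ := rfl
  map_zero' := rfl
  map_add' _ _ := rfl

/-- the prime of `𝓞 L` below `A`. -/
noncomputable def primeBelow (A : ValuationSubring Qbar) : Ideal (𝓞 L) :=
  (IsLocalRing.maximalIdeal A).comap (toValuationSubring L A)

instance (A : ValuationSubring Qbar) : (primeBelow L A).IsPrime := by
  unfold primeBelow
  infer_instance

theorem mem_primeBelow_iff (A : ValuationSubring Qbar) (x : 𝓞 L) :
    x ∈ primeBelow L A ↔ ((x : L) : Qbar) ∈ A.nonunits := by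
  rw [primeBelow, Ideal.mem_comap, A.valuation_lt_one_iff, A.mem_nonunits_iff]
  rfl

theorem coe_restrictNormal_smul [Normal ℚ L] (g : GQ) (x : 𝓞 L) :
    (((AlgEquiv.restrictNormalHom L g • x : 𝓞 L) : L) : Qbar) = g ((x : L) : Qbar) :=
  AlgEquiv.restrictNormal_commutes g L (x : L)

theorem primeBelow_smul [Normal ℚ L] (g : GQ) (A : ValuationSubring Qbar) :
    primeBelow L (g • A) = AlgEquiv.restrictNormalHom L g • primeBelow L A := by
  ext x
  rw [Ideal.mem_pointwise_smul_iff_inv_smul_mem, mem_primeBelow_iff, mem_primeBelow_iff,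
    mem_nonunits_smul_iff, ← map_inv, coe_restrictNormal_smul]

theorem natCast_mem_primeBelow {A : ValuationSubring Qbar} {ℓ : ℕ} (hA : A.LiesOverPrime ℓ) :
    (ℓ : 𝓞 L) ∈ primeBelow L A := by
  rw [mem_primeBelow_iff]
  have h : (ℓ : Qbar) ∈ A.nonunits := hA
  simpa using h

end Ideal

/-- A prime ideal of `𝓞 L` containing the prime number `ℓ` lies over `(ℓ)`. -/
theorem liesOver_span_of_natCast_mem {L : Type*} [Field L] {ℓ : ℕ} (hℓ : ℓ.Prime)
    (Q : Ideal (𝓞 L)) [Q.IsPrime] (hQ : (ℓ : 𝓞 L) ∈ Q) :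
    Q.LiesOver (Ideal.span {(ℓ : ℤ)}) := by
  constructor
  have hmax : (Ideal.span {(ℓ : ℤ)}).IsMaximal :=
    (Ideal.isPrime_of_prime (Ideal.prime_span_singleton_iff.mpr
      (Nat.prime_iff_prime_int.mp hℓ))).isMaximal (by simp [hℓ.ne_zero])
  refine hmax.eq_of_le ?_ ?_
  · exact (Ideal.IsPrime.under ℤ Q).ne_top
  · rw [Ideal.span_singleton_le_iff_mem, Ideal.under_def, Ideal.mem_comap]
    simpa using hQ

theorem coe_mem_valuationSubring (L : IntermediateField ℚ Qbar) (A : ValuationSubring Qbar)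
    (x : 𝓞 L) : ((x : L) : Qbar) ∈ A :=
  (toValuationSubring L A x).2

/-- if `g|L = h|L` then `g` and `h` agree on `L`. -/
theorem apply_eq_of_restrictNormalHom_eq (L : IntermediateField ℚ Qbar) [Normal ℚ L] {g h : GQ}
    (hgh : AlgEquiv.restrictNormalHom L g = AlgEquiv.restrictNormalHom L h) (x : Qbar)
    (hx : x ∈ L) : g x = h x := by
  have h1 := AlgEquiv.restrictNormal_commutes g L ⟨x, hx⟩
  have h2 := AlgEquiv.restrictNormal_commutes h L ⟨x, hx⟩
  have h3 : g.restrictNormal L = h.restrictNormal L := hgh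
  rw [h3] at h1
  exact h1.symm.trans h2

end Transfer

open NumberField
open scoped Pointwise
open Fermat.Agent.Lib.Frobenius Transfer

local notation "Qbar" => AlgebraicClosure ℚ
local notation "GQ" => (AlgebraicClosure ℚ ≃ₐ[ℚ] AlgebraicClosure ℚ)

/-- The transfer statement for a fixed prime `Q` of `𝓞 L`. -/
theorem weak_chebotarev_aux (L : IntermediateField ℚ Qbar) [FiniteDimensional ℚ L] [Normal ℚ L]
    (σ : GQ) (ℓ : ℕ) (hℓ : ℓ.Prime) (Q : Ideal (𝓞 L)) [Q.IsPrime] (hQ : (ℓ : 𝓞 L) ∈ Q)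
    (hstab : MulAction.stabilizer (L ≃ₐ[ℚ] L) Q =
      Subgroup.zpowers (AlgEquiv.restrictNormalHom L σ))
    (hI : ∀ g : L ≃ₐ[ℚ] L, (∀ x : 𝓞 L, g • x - x ∈ Q) → g = 1)
    (hZ : ∀ φ : L ≃ₐ[ℚ] L, (∀ x : 𝓞 L, φ • x - x ^ ℓ ∈ Q) →
      Subgroup.zpowers φ = MulAction.stabilizer (L ≃ₐ[ℚ] L) Q) :
    ∃ A : ValuationSubring Qbar, A.LiesOverPrime ℓ ∧
      (∀ τ ∈ A.inertiaSubgroupIn ℚ, ∀ x ∈ L, τ x = x) ∧
      ∀ φ : GQ, A.IsFrobeniusAt φ ℓ →
        (∃ k : ℕ, ∀ x ∈ L, φ x = (σ ^ k) x) ∧ (∃ k : ℕ, ∀ x ∈ L, σ x = (φ ^ k) x) := by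
  classical
  have := isGalois_rat
  have : NumberField L := ⟨⟩
  have : IsGalois ℚ L := ⟨⟩
  obtain ⟨A0, hA0⟩ := exists_liesOverPrime ℓ hℓ
  have := liesOver_span_of_natCast_mem hℓ Q hQ
  have := liesOver_span_of_natCast_mem hℓ (primeBelow L A0) (natCast_mem_primeBelow L hA0)
  obtain ⟨g, hg⟩ := Ideal.exists_smul_eq_of_isGaloisGroup (Ideal.span {(ℓ : ℤ)})
    (primeBelow L A0) Q (L ≃ₐ[ℚ] L)
  obtain ⟨g', rfl⟩ := AlgEquiv.restrictNormalHom_surjective Qbar g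
  have hAQ : primeBelow L (g' • A0) = Q := by rw [primeBelow_smul, hg]
  refine ⟨g' • A0, ?_, ?_, ?_⟩
  · show (ℓ : Qbar) ∈ (g' • A0).nonunits
    rw [mem_nonunits_smul_iff]
    have h : (ℓ : Qbar) ∈ A0.nonunits := hA0
    simpa using h
  · intro τ hτ
    have h1 : AlgEquiv.restrictNormalHom L τ = AlgEquiv.restrictNormalHom L (1 : GQ) := by
      rw [map_one]
      apply hI
      intro x
      rw [← hAQ, mem_primeBelow_iff]
      have h2 : (((AlgEquiv.restrictNormalHom L τ • x - x : 𝓞 L) : L) : Qbar)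
          = τ ((x : L) : Qbar) - ((x : L) : Qbar) := by
        rw [← coe_restrictNormal_smul]
        rfl
      rw [h2]
      exact sub_mem_nonunits_of_mem_inertiaSubgroupIn hτ (coe_mem_valuationSubring L _ x)
    intro x hx
    exact apply_eq_of_restrictNormalHom_eq L h1 x hx
  · intro φ hφ
    have h1 : Subgroup.zpowers (AlgEquiv.restrictNormalHom L φ) =
        Subgroup.zpowers (AlgEquiv.restrictNormalHom L σ) := by
      rw [← hstab]
      apply hZ
      intro x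
      rw [← hAQ, mem_primeBelow_iff]
      have h2 : (((AlgEquiv.restrictNormalHom L φ • x - x ^ ℓ : 𝓞 L) : L) : Qbar)
          = φ ((x : L) : Qbar) - ((x : L) : Qbar) ^ ℓ := by
        rw [← coe_restrictNormal_smul]
        rfl
      rw [h2]
      exact sub_pow_mem_nonunits_of_isFrobeniusAt hφ (coe_mem_valuationSubring L _ x)
    constructor
    · have h3 : AlgEquiv.restrictNormalHom L φ ∈
          Subgroup.zpowers (AlgEquiv.restrictNormalHom L σ) := by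
        rw [← h1]; exact Subgroup.mem_zpowers _
      rw [← mem_powers_iff_mem_zpowers] at h3
      obtain ⟨k, hk⟩ := h3
      refine ⟨k, fun x hx => apply_eq_of_restrictNormalHom_eq L ?_ x hx⟩
      rw [map_pow]
      exact hk.symm
    · have h3 : AlgEquiv.restrictNormalHom L σ ∈
          Subgroup.zpowers (AlgEquiv.restrictNormalHom L φ) := by
        rw [h1]; exact Subgroup.mem_zpowers _
      rw [← mem_powers_iff_mem_zpowers] at h3
      obtain ⟨k, hk⟩ := h3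
      refine ⟨k, fun x hx => apply_eq_of_restrictNormalHom_eq L ?_ x hx⟩
      rw [map_pow]
      exact hk.symm

/-- WEAK CHEBOTAREV, consumer form, from the three number field statements. -/
theorem weak_chebotarev_of
    (hNF : ∀ (L : Type) [Field L] [NumberField L] [IsGalois ℚ L] (σ : L ≃ₐ[ℚ] L) (T : Finset ℕ),
      ∃ ℓ : ℕ, ℓ.Prime ∧ ℓ ∉ T ∧ ¬ (ℓ : ℤ) ∣ discr L ∧ ∃ Q : Ideal (𝓞 L), Q.IsPrime ∧
        (ℓ : 𝓞 L) ∈ Q ∧ MulAction.stabilizer (L ≃ₐ[ℚ] L) Q = Subgroup.zpowers σ)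
    (hI : ∀ (L : Type) [Field L] [NumberField L] [IsGalois ℚ L] (ℓ : ℕ), ℓ.Prime →
      ¬ (ℓ : ℤ) ∣ discr L → ∀ (Q : Ideal (𝓞 L)) [Q.IsPrime], (ℓ : 𝓞 L) ∈ Q →
      ∀ g : L ≃ₐ[ℚ] L, (∀ x : 𝓞 L, g • x - x ∈ Q) → g = 1)
    (hZ : ∀ (L : Type) [Field L] [NumberField L] [IsGalois ℚ L] (ℓ : ℕ), ℓ.Prime →
      ¬ (ℓ : ℤ) ∣ discr L → ∀ (Q : Ideal (𝓞 L)) [Q.IsPrime], (ℓ : 𝓞 L) ∈ Q →
      ∀ φ : L ≃ₐ[ℚ] L, (∀ x : 𝓞 L, φ • x - x ^ ℓ ∈ Q) →
      Subgroup.zpowers φ = MulAction.stabilizer (L ≃ₐ[ℚ] L) Q)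
    (L : IntermediateField ℚ Qbar) [FiniteDimensional ℚ L] [Normal ℚ L] (σ : GQ)
    (T : Finset ℕ) :
    ∃ (ℓ : ℕ) (A : ValuationSubring Qbar), ℓ.Prime ∧ ℓ ∉ T ∧
      A.LiesOverPrime ℓ ∧
      (∀ τ ∈ A.inertiaSubgroupIn ℚ, ∀ x ∈ L, τ x = x) ∧
      ∀ φ : GQ, A.IsFrobeniusAt φ ℓ →
        (∃ k : ℕ, ∀ x ∈ L, φ x = (σ ^ k) x) ∧ (∃ k : ℕ, ∀ x ∈ L, σ x = (φ ^ k) x) := by
  have : NumberField L := ⟨⟩
  have : IsGalois ℚ L := ⟨⟩
  obtain ⟨ℓ, hℓ, hℓT, hunr, Q, hQp, hQ, hstab⟩ := hNF L (AlgEquiv.restrictNormalHom L σ) T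
  obtain ⟨A, h1, h2, h3⟩ := weak_chebotarev_aux L σ ℓ hℓ Q hQ hstab
    (hI L ℓ hℓ hunr Q hQ) (hZ L ℓ hℓ hunr Q hQ)
  exact ⟨ℓ, A, hℓ, hℓT, h1, h2, h3⟩

end Fermat.Agent.Lib.WeakChebotarev

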