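import Fermat.Agent.Lib.WeakChebotarev.Defs

/-!
# Weak Chebotarev: the abstract counting argument

Given subgroups `D i` of a finite group `G`, weights `w s i` and, for every subgroup `H`,
`∑ i, #{g | g (D i) g⁻¹ ≤ H} * w s i = |H| * lam s + O(1)` with `lam s → ∞`, every cyclic
subgroup of `G` is conjugate to `D i` for infinitely many `i`.
-/

set_option autoImplicit false

namespace Fermat.Agent.Lib.WeakChebotarev

open Filter Topology

section group

variable {G : Type*} [Group G]

theorem mem_zpowers_pow_div_iff {σ : G} {d : ℕ} (hd : d ∣ orderOf σ) (hn : 0 < orderOf σ)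
    (y : G) :
    y ∈ Subgroup.zpowers (σ ^ (orderOf σ / d)) ↔ y ∈ Subgroup.zpowers σ ∧ y ^ d = 1 := by
  obtain ⟨m, hm⟩ := hd
  have hd0 : 0 < d := Nat.pos_of_ne_zero (by rintro rfl; rw [zero_mul] at hm; omega)
  have hdiv : orderOf σ / d = m := by rw [hm]; exact Nat.mul_div_cancel_left m hd0
  rw [hdiv]
  constructor
  · rintro ⟨k, rfl⟩
    refine ⟨⟨m * k, by simp [zpow_mul]⟩, ?_⟩
    have : ((σ ^ m) ^ k) ^ d = (σ ^ (orderOf σ)) ^ k := by
      rw [hm, ← zpow_natCast ((σ ^ m) ^ k), ← zpow_natCast σ m, ← zpow_natCast σ (d * m),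
        ← zpow_mul, ← zpow_mul, ← zpow_mul]
      congr 1
      push_cast
      ring
    simpa [pow_orderOf_eq_one] using this
  · rintro ⟨⟨k, rfl⟩, hk⟩
    have h1 : σ ^ (k * d) = 1 := by
      rw [zpow_mul, zpow_natCast]; exact hk
    rw [← orderOf_dvd_iff_zpow_eq_one, hm] at h1
    have h2 : (m : ℤ) ∣ k := by
      have : ((d : ℤ) * m) ∣ d * k := by
        rw [mul_comm (d : ℤ) k]; exact_mod_cast h1
      exact (mul_dvd_mul_iff_left (by exact_mod_cast hd0.ne')).mp this
    obtain ⟨j, rfl⟩ := h2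
    exact ⟨j, by simp [zpow_mul]⟩

variable [Finite G]

theorem conjCount_le (D H : Subgroup G) : conjCount D H ≤ Nat.card G := by
  unfold conjCount
  exact Nat.card_le_card_of_injective _ Subtype.val_injective

open Classical in
theorem conjCount_zpowers_pow (D : Subgroup G) (σ : G) {d : ℕ} (hd : d ∣ orderOf σ) :
    conjCount D (Subgroup.zpowers (σ ^ (orderOf σ / d))) =
      if Monoid.exponent D ∣ d then conjCount D (Subgroup.zpowers σ) else 0 := by
  have hn : 0 < orderOf σ := orderOf_pos σ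
  have key : ∀ g : G, (∀ x ∈ D, g * x * g⁻¹ ∈ Subgroup.zpowers (σ ^ (orderOf σ / d))) ↔
      ((∀ x ∈ D, g * x * g⁻¹ ∈ Subgroup.zpowers σ) ∧ Monoid.exponent D ∣ d) := by
    intro g
    rw [Monoid.exponent_dvd_iff_forall_pow_eq_one]
    constructor
    · intro h
      refine ⟨fun x hx ↦ ((mem_zpowers_pow_div_iff hd hn _).mp (h x hx)).1, ?_⟩
      rintro ⟨x, hx⟩
      have := ((mem_zpowers_pow_div_iff hd hn _).mp (h x hx)).2
      rw [conj_pow] at this
      have h2 : x ^ d = 1 := by
        have h3 := congrArg (fun z ↦ g⁻¹ * z * g) this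
        simpa [mul_assoc] using h3
      exact Subtype.ext (by simpa using h2)
    · rintro ⟨h1, h2⟩ x hx
      refine (mem_zpowers_pow_div_iff hd hn _).mpr ⟨h1 x hx, ?_⟩
      have := congrArg Subtype.val (h2 ⟨x, hx⟩)
      simp only [SubmonoidClass.coe_pow, OneMemClass.coe_one] at this
      rw [conj_pow, this]
      simp
  unfold conjCount
  split_ifs with h
  · exact Nat.card_congr (Equiv.subtypeEquivRight fun g ↦ by rw [key g]; simp [h])
  · have : IsEmpty {g : G // ∀ x ∈ D, g * x * g⁻¹ ∈ Subgroup.zpowers (σ ^ (orderOf σ / d))} :=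
      ⟨fun g ↦ h ((key g.1).mp g.2).2⟩
    exact Nat.card_of_isEmpty

theorem map_conj_eq_zpowers (D : Subgroup G) (σ g : G)
    (hg : ∀ x ∈ D, g * x * g⁻¹ ∈ Subgroup.zpowers σ) (he : Monoid.exponent D = orderOf σ) :
    D.map (MulAut.conj g).toMonoidHom = Subgroup.zpowers σ := by
  have hle : D.map (MulAut.conj g).toMonoidHom ≤ Subgroup.zpowers σ := by
    rintro _ ⟨x, hx, rfl⟩
    simpa using hg x hx
  apply Subgroup.eq_of_le_of_card_ge hle
  have hcyc : IsCyclic (D.map (MulAut.conj g).toMonoidHom) := by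
    have : IsCyclic ((D.map (MulAut.conj g).toMonoidHom).subgroupOf (Subgroup.zpowers σ)) :=
      Subgroup.isCyclic _
    exact isCyclic_of_surjective (Subgroup.subgroupOfEquivOfLe hle)
      (Subgroup.subgroupOfEquivOfLe hle).surjective
  rw [Nat.card_zpowers, ← he, ← IsCyclic.exponent_eq_card]
  exact le_of_eq (Monoid.exponent_eq_of_mulEquiv
    (D.equivMapOfInjective _ (MulAut.conj g).injective))

end group

section density

variable {G : Type*} [Group G] [Finite G] {ι : Type*}

open Classical in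
/-- `#{g | g (D i) g⁻¹ ≤ ⟨σ⟩}` if `D i` has exponent `e`, and `0` otherwise. -/
noncomputable def expCount (D : ι → Subgroup G) (σ : G) (e : ℕ) (i : ι) : ℕ :=
  if Monoid.exponent (D i) = e then conjCount (D i) (Subgroup.zpowers σ) else 0

theorem expCount_le (D : ι → Subgroup G) (σ : G) (e : ℕ) (i : ι) :
    expCount D σ e i ≤ Nat.card G := by
  unfold expCount
  split_ifs
  · exact conjCount_le _ _
  · exact Nat.zero_le _

theorem conjCount_eq_sum_expCount (D : ι → Subgroup G) (σ : G) {d : ℕ} (hd : d ∣ orderOf σ)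
    (i : ι) :
    conjCount (D i) (Subgroup.zpowers (σ ^ (orderOf σ / d))) =
      ∑ e ∈ d.divisors, expCount D σ e i := by
  classical
  have hd0 : d ≠ 0 := by
    rintro rfl
    exact (orderOf_pos σ).ne' (Nat.eq_zero_of_zero_dvd hd)
  rw [conjCount_zpowers_pow _ _ hd]
  unfold expCount
  rw [Finset.sum_ite_eq]
  simp [Nat.mem_divisors, hd0]

theorem summable_expCount (D : ι → Subgroup G) (σ : G) (e : ℕ) {v : ι → ℝ}
    (hv0 : ∀ i, 0 ≤ v i) (hv : Summable v) :
    Summable fun i ↦ (expCount D σ e i : ℝ) * v i := by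
  refine Summable.of_nonneg_of_le (fun i ↦ mul_nonneg (Nat.cast_nonneg _) (hv0 i))
    (fun i ↦ ?_) (hv.mul_left (Nat.card G : ℝ))
  exact mul_le_mul_of_nonneg_right (by exact_mod_cast expCount_le D σ e i) (hv0 i)

theorem expCount_sum_bound (D : ι → Subgroup G) (w : ℝ → ι → ℝ) (lam : ℝ → ℝ) (l : Filter ℝ)
    (hw : ∀ᶠ s in l, (∀ i, 0 ≤ w s i ∧ w s i ≤ 1) ∧ Summable (w s))
    (hH : ∀ H : Subgroup G, ∃ C : ℝ, ∀ᶠ s in l,
      |∑' i, (conjCount (D i) H : ℝ) * w s i - Nat.card H * lam s| ≤ C)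
    (σ : G) (d : ℕ) (hd : d ∣ orderOf σ) :
    ∃ K : ℝ, ∀ᶠ s in l, |∑' i, (expCount D σ d i : ℝ) * w s i - d.totient * lam s| ≤ K := by
  induction d using Nat.strong_induction_on with
  | _ d ih =>
    have hd0 : d ≠ 0 := by
      rintro rfl
      exact (orderOf_pos σ).ne' (Nat.eq_zero_of_zero_dvd hd)
    have hprop : ∀ e ∈ d.properDivisors, ∃ K : ℝ, ∀ᶠ s in l,
        |∑' i, (expCount D σ e i : ℝ) * w s i - e.totient * lam s| ≤ K := by
      intro e he
      rw [Nat.mem_properDivisors] at he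
      exact ih e he.2 (he.1.trans hd)
    choose! K hK using hprop
    obtain ⟨C0, hC0⟩ := hH (Subgroup.zpowers (σ ^ (orderOf σ / d)))
    refine ⟨C0 + ∑ e ∈ d.properDivisors, K e, ?_⟩
    have hK' : ∀ᶠ s in l, ∀ e ∈ d.properDivisors,
        |∑' i, (expCount D σ e i : ℝ) * w s i - e.totient * lam s| ≤ K e :=
      (Filter.eventually_all_finset _).mpr hK
    filter_upwards [hw, hC0, hK'] with s hs h0 h1
    have hcard : Nat.card (Subgroup.zpowers (σ ^ (orderOf σ / d))) = d := by
      rw [Nat.card_zpowers]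
      exact orderOf_pow_orderOf_div (orderOf_pos σ).ne' hd
    rw [hcard] at h0
    have hsumm : ∀ e, Summable fun i ↦ (expCount D σ e i : ℝ) * w s i :=
      fun e ↦ summable_expCount D σ e (fun i ↦ (hs.1 i).1) hs.2
    have hsplit : ∑' i, (conjCount (D i) (Subgroup.zpowers (σ ^ (orderOf σ / d))) : ℝ) * w s i =
        ∑ e ∈ d.divisors, ∑' i, (expCount D σ e i : ℝ) * w s i := by
      rw [← Summable.tsum_finsetSum (fun e _ ↦ hsumm e)]
      refine tsum_congr fun i ↦ ?_
      rw [conjCount_eq_sum_expCount D σ hd i, Nat.cast_sum, Finset.sum_mul]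
    rw [hsplit, ← Nat.insert_self_properDivisors hd0,
      Finset.sum_insert Nat.self_notMem_properDivisors] at h0
    have htot : (d : ℝ) = d.totient + ∑ e ∈ d.properDivisors, (e.totient : ℝ) := by
      have := Nat.sum_totient d
      rw [← Nat.insert_self_properDivisors hd0,
        Finset.sum_insert Nat.self_notMem_properDivisors] at this
      exact_mod_cast this.symm
    have hrw : ∑' i, (expCount D σ d i : ℝ) * w s i - d.totient * lam s =
        (∑' i, (expCount D σ d i : ℝ) * w s i +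
          ∑ e ∈ d.properDivisors, ∑' i, (expCount D σ e i : ℝ) * w s i - d * lam s) -
        ∑ e ∈ d.properDivisors,
          (∑' i, (expCount D σ e i : ℝ) * w s i - e.totient * lam s) := by
      rw [Finset.sum_sub_distrib, ← Finset.sum_mul]
      conv_rhs => rw [htot]
      ring
    rw [hrw]
    calc _ ≤ |∑' i, (expCount D σ d i : ℝ) * w s i +
          ∑ e ∈ d.properDivisors, ∑' i, (expCount D σ e i : ℝ) * w s i - d * lam s| +
        |∑ e ∈ d.properDivisors,
          (∑' i, (expCount D σ e i : ℝ) * w s i - e.totient * lam s)| := abs_sub _ _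
      _ ≤ C0 + ∑ e ∈ d.properDivisors, K e := by
        refine add_le_add h0 ((Finset.abs_sum_le_sum_abs _ _).trans ?_)
        exact Finset.sum_le_sum h1

/-- **Abstract weak Chebotarev.** -/
theorem abstract_density (D : ι → Subgroup G)
    (w : ℝ → ι → ℝ) (lam : ℝ → ℝ) (l : Filter ℝ) [l.NeBot]
    (hw : ∀ᶠ s in l, (∀ i, 0 ≤ w s i ∧ w s i ≤ 1) ∧ Summable (w s))
    (hlam : Tendsto lam l atTop)
    (hH : ∀ H : Subgroup G, ∃ C : ℝ, ∀ᶠ s in l,
      |∑' i, (conjCount (D i) H : ℝ) * w s i - Nat.card H * lam s| ≤ C)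
    (σ : G) (T : Set ι) (hT : T.Finite) :
    ∃ i ∉ T, ∃ g : G, (D i).map (MulAut.conj g).toMonoidHom = Subgroup.zpowers σ := by
  by_contra hcon
  push Not at hcon
  obtain ⟨K, hK⟩ := expCount_sum_bound D w lam l hw hH σ (orderOf σ) dvd_rfl
  have hzero : ∀ i ∉ T, expCount D σ (orderOf σ) i = 0 := by
    intro i hi
    unfold expCount
    split_ifs with he
    · unfold conjCount
      have : IsEmpty {g : G // ∀ d ∈ D i, g * d * g⁻¹ ∈ Subgroup.zpowers σ} :=
        ⟨fun g ↦ hcon i hi g.1 (map_conj_eq_zpowers (D i) σ g.1 g.2 he)⟩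
      exact Nat.card_of_isEmpty
    · rfl
  have htot : (1 : ℝ) ≤ (orderOf σ).totient := by
    exact_mod_cast Nat.totient_pos.mpr (orderOf_pos σ)
  have hbig := hlam.eventually_gt_atTop (max 0 (K + hT.toFinset.card * Nat.card G))
  obtain ⟨s, hs, hKs, hbs⟩ := (hw.and (hK.and hbig)).exists
  have hA : ∑' i, (expCount D σ (orderOf σ) i : ℝ) * w s i ≤ hT.toFinset.card * Nat.card G := by
    rw [tsum_eq_sum (s := hT.toFinset) (fun i hi ↦ by
      rw [hzero i (by simpa using hi)]; simp)]
    calc _ ≤ ∑ _i ∈ hT.toFinset, (Nat.card G : ℝ) := by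
          refine Finset.sum_le_sum fun i _ ↦ ?_
          calc (expCount D σ (orderOf σ) i : ℝ) * w s i ≤ (Nat.card G : ℝ) * 1 :=
                mul_le_mul (by exact_mod_cast expCount_le D σ _ i) (hs.1 i).2 (hs.1 i).1
                  (Nat.cast_nonneg _)
            _ = _ := mul_one _
      _ = _ := by simp
  have h1 := (abs_le.mp hKs).1
  have hl0 : 0 < lam s := lt_of_le_of_lt (le_max_left _ _) hbs
  have hl1 : K + hT.toFinset.card * Nat.card G < lam s := lt_of_le_of_lt (le_max_right _ _) hbs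
  have h2 : lam s ≤ (orderOf σ).totient * lam s := by nlinarith
  linarith

end density

end Fermat.Agent.Lib.WeakChebotarev
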