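import Mathlib

/-!
# Weak Chebotarev (Frobenius density theorem, existence form): definitions

`degOneCount F ℓ` is the number of prime ideals of `𝓞 F` of norm exactly `ℓ`;
`conjCount D H` is the number of `g` with `g D g⁻¹ ≤ H`.
-/

set_option autoImplicit false

namespace Fermat.Agent.Lib.WeakChebotarev

open NumberField Ideal

/-- number of prime ideals of `𝓞 F` of norm exactly `ℓ`. -/
noncomputable def degOneCount (F : Type*) [Field F] [NumberField F] (ℓ : ℕ) : ℕ :=
  Nat.card {P : Ideal (𝓞 F) // P.IsPrime ∧ absNorm P = ℓ}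

/-- the Dirichlet series `∑_ℓ #{P : N P = ℓ} ℓ^(-s)` over rational primes `ℓ`. -/
noncomputable def degOneSum (F : Type*) [Field F] [NumberField F] (s : ℝ) : ℝ :=
  ∑' ℓ : Nat.Primes, (degOneCount F (ℓ : ℕ) : ℝ) * ((ℓ : ℕ) : ℝ) ^ (-s)

/-- number of `g` with `g D g⁻¹ ≤ H`. -/
noncomputable def conjCount {G : Type*} [Group G] (D H : Subgroup G) : ℕ :=
  Nat.card {g : G // ∀ d ∈ D, g * d * g⁻¹ ∈ H}

end Fermat.Agent.Lib.WeakChebotarev
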