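import Mathlib
import Fermat.Agent.Lib.WeakChebotarev.Defs
import Fermat.Agent.Lib.WeakChebotarev.Inertia

/-!
# Weak Chebotarev, ALG2: counting the primes of norm `ℓ` of a fixed field `L^H`

`|H| * #{primes of L^H of norm ℓ} = #{g : g D g⁻¹ ≤ H}`, `D` the decomposition group of a prime
of `L` above the unramified prime `ℓ`.
-/

set_option autoImplicit false

namespace Fermat.Agent.Lib.WeakChebotarev

open NumberField Ideal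
open scoped Pointwise
open Inertia

namespace Count

variable (L : Type*) [Field L] [NumberField L] [IsGalois ℚ L] (H : Subgroup (L ≃ₐ[ℚ] L))

/-- the fixed field of `H` -/
abbrev FF : IntermediateField ℚ L := FixedPoints.intermediateField H

instance isGaloisGroup_ringOfIntegers : IsGaloisGroup H (𝓞 (FF L H)) (𝓞 L) :=
  IsGaloisGroup.of_isFractionRing H (𝓞 (FF L H)) (𝓞 L) (FF L H) L

variable {L H}

lemma card_stabilizer_G {ℓ : ℕ} (hℓ : ℓ.Prime) (hunr : ¬ (ℓ : ℤ) ∣ discr L) (Q : Ideal (𝓞 L))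
    [Q.IsPrime] (hQ : (ℓ : 𝓞 L) ∈ Q) :
    Nat.card (MulAction.stabilizer (L ≃ₐ[ℚ] L) Q) = Q.inertiaDeg ℤ := by
  have hp := span_isPrime hℓ
  have hlo := liesOver hℓ Q hQ
  have hun : Algebra.IsUnramifiedIn (𝓞 L) (span {(ℓ : ℤ)}) :=
    (not_dvd_discr_iff_isUnramifiedIn L (𝓞 L) (Nat.prime_iff_prime_int.mp hℓ)).mp hunr
  have he : Q.ramificationIdx ℤ = 1 := hun.ramificationIdx_eq_one hlo
  rw [card_stabilizer_eq (span {(ℓ : ℤ)}) Q,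
      ramificationIdxIn_eq_ramificationIdx (span {(ℓ : ℤ)}) Q (L ≃ₐ[ℚ] L), he, one_mul,
      inertiaDegIn_eq_inertiaDeg (span {(ℓ : ℤ)}) Q (L ≃ₐ[ℚ] L)]

lemma card_stabilizer_H {ℓ : ℕ} (hℓ : ℓ.Prime) (hunr : ¬ (ℓ : ℤ) ∣ discr L) (Q : Ideal (𝓞 L))
    [Q.IsPrime] (hQ : (ℓ : 𝓞 L) ∈ Q) :
    Nat.card (MulAction.stabilizer H Q) = Q.inertiaDeg (𝓞 (FF L H)) := by
  have hin : Nat.card (Q.inertia H) = 1 := by
    rw [Nat.card_eq_one_iff_unique]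
    refine ⟨⟨fun a b => ?_⟩, ⟨1⟩⟩
    have h1 : ∀ a : Q.inertia H, a = 1 := by
      intro a
      have := inertia_eq_bot L ℓ hℓ hunr Q hQ (a.1 : L ≃ₐ[ℚ] L)
        (fun x => AddSubgroup.mem_inertia.mp a.2 x)
      ext1; ext1
      exact this
    rw [h1 a, h1 b]
  have h2 := card_stabilizer_eq_card_inertia_mul_finrank (G := H) (Q.under (𝓞 (FF L H))) Q
  rw [hin, one_mul] at h2
  exact h2

omit [IsGalois ℚ L] in
lemma card_stabilizer_H_eq (Q : Ideal (𝓞 L)) :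
    Nat.card (MulAction.stabilizer H Q) =
      Nat.card ((MulAction.stabilizer (L ≃ₐ[ℚ] L) Q ⊓ H : Subgroup (L ≃ₐ[ℚ] L))) := by
  refine Nat.card_congr ⟨fun a => ⟨a.1.1, a.2, a.1.2⟩, fun a => ⟨⟨a.1, a.2.2⟩, a.2.1⟩,
    fun a => rfl, fun a => rfl⟩

omit [IsGalois ℚ L] in
lemma natCast_mem_under {ℓ : ℕ} (Q : Ideal (𝓞 L)) (hQ : (ℓ : 𝓞 L) ∈ Q) :
    (ℓ : 𝓞 (FF L H)) ∈ Q.under (𝓞 (FF L H)) := by
  rw [Ideal.mem_comap]
  simpa using hQ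

/-- the key local statement -/
lemma absNorm_under_eq_iff {ℓ : ℕ} (hℓ : ℓ.Prime) (hunr : ¬ (ℓ : ℤ) ∣ discr L) (Q : Ideal (𝓞 L))
    [Q.IsPrime] (hQ : (ℓ : 𝓞 L) ∈ Q) :
    absNorm (Q.under (𝓞 (FF L H))) = ℓ ↔ MulAction.stabilizer (L ≃ₐ[ℚ] L) Q ≤ H := by
  have hG := card_stabilizer_G hℓ hunr Q hQ
  have hH := card_stabilizer_H (H := H) hℓ hunr Q hQ
  rw [card_stabilizer_H_eq] at hH
  have htower := inertiaDeg_tower (R := ℤ) (Q.under (𝓞 (FF L H))) Q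
  have hlo : (Q.under (𝓞 (FF L H))).LiesOver (span {(ℓ : ℤ)}) :=
    liesOver hℓ _ (natCast_mem_under Q hQ)
  have hnorm := natAbs_pow_inertiaDeg (ℓ : ℤ) (Q.under (𝓞 (FF L H)))
  rw [Int.natAbs_natCast] at hnorm
  have hpos : 0 < Q.inertiaDeg (𝓞 (FF L H)) := Q.inertiaDeg_pos _
  constructor
  · intro h
    rw [← hnorm] at h
    have h1 : (Q.under (𝓞 (FF L H))).inertiaDeg ℤ = 1 :=
      Nat.pow_right_injective hℓ.two_le (by simpa using h)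
    rw [h1, one_mul, ← hG, ← hH] at htower
    have : MulAction.stabilizer (L ≃ₐ[ℚ] L) Q ⊓ H = MulAction.stabilizer (L ≃ₐ[ℚ] L) Q :=
      Subgroup.eq_of_le_of_card_ge inf_le_left htower.le
    exact inf_eq_left.mp this
  · intro h
    rw [inf_eq_left.mpr h, hG] at hH
    rw [← hH] at htower hpos
    have h1 : (Q.under (𝓞 (FF L H))).inertiaDeg ℤ = 1 := by
      have := Nat.eq_of_mul_eq_mul_right hpos (by rw [one_mul]; exact htower :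
        1 * Q.inertiaDeg ℤ = (Q.under (𝓞 (FF L H))).inertiaDeg ℤ * Q.inertiaDeg ℤ)
      exact this.symm
    rw [← hnorm, h1, pow_one]

omit [IsGalois ℚ L] in
lemma natCast_mem_smul {ℓ : ℕ} (Q : Ideal (𝓞 L)) (hQ : (ℓ : 𝓞 L) ∈ Q) (g : L ≃ₐ[ℚ] L) :
    (ℓ : 𝓞 L) ∈ g • Q := by
  have := Ideal.smul_mem_pointwise_smul g _ Q hQ
  have h1 : g • (ℓ : 𝓞 L) = (ℓ : 𝓞 L) := map_natCast (MulSemiringAction.toRingHom _ (𝓞 L) g) ℓ
  rwa [h1] at this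

omit [IsGalois ℚ L] in
lemma conj_mem_iff (Q : Ideal (𝓞 L)) (g : L ≃ₐ[ℚ] L) :
    (∀ d ∈ MulAction.stabilizer (L ≃ₐ[ℚ] L) Q, g * d * g⁻¹ ∈ H) ↔
      MulAction.stabilizer (L ≃ₐ[ℚ] L) (g • Q) ≤ H := by
  rw [MulAction.stabilizer_smul_eq_stabilizer_map_conj, Subgroup.map_le_iff_le_comap]
  rfl

lemma under_smul_of_mem (Q : Ideal (𝓞 L)) {h : L ≃ₐ[ℚ] L} (hh : h ∈ H) :
    (h • Q).under (𝓞 (FF L H)) = Q.under (𝓞 (FF L H)) :=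
  Ideal.under_smul (𝓞 (FF L H)) Q (⟨h, hh⟩ : H)

lemma exists_mem_smul_eq (Q Q' : Ideal (𝓞 L)) [Q.IsPrime] [Q'.IsPrime]
    (h : Q.under (𝓞 (FF L H)) = Q'.under (𝓞 (FF L H))) : ∃ h ∈ H, h • Q = Q' := by
  obtain ⟨g, hg⟩ := Algebra.IsInvariant.exists_smul_of_under_eq (𝓞 (FF L H)) (𝓞 L) H Q Q' h
  exact ⟨g.1, g.2, hg.symm⟩

lemma exists_smul_under_eq {ℓ : ℕ} (hℓ : ℓ.Prime) (Q : Ideal (𝓞 L)) [Q.IsPrime]
    (hQ : (ℓ : 𝓞 L) ∈ Q) (P : Ideal (𝓞 (FF L H))) [P.IsPrime] (hP : absNorm P = ℓ) :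
    ∃ g : L ≃ₐ[ℚ] L, (g • Q).under (𝓞 (FF L H)) = P := by
  obtain ⟨⟨Q', hQ'p, hQ'o⟩⟩ := (inferInstance : Nonempty (primesOver P (𝓞 L)))
  have hmemP : (ℓ : 𝓞 (FF L H)) ∈ P := by
    have := Ideal.absNorm_mem P
    rwa [hP] at this
  have hmem : (ℓ : 𝓞 L) ∈ Q' := by
    have h1 : algebraMap (𝓞 (FF L H)) (𝓞 L) (ℓ : 𝓞 (FF L H)) ∈ Q' := by
      rw [← Ideal.mem_comap]
      have := hQ'o.over
      rw [Ideal.under_def] at this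
      rw [← this]
      exact hmemP
    simpa using h1
  have h1 := liesOver hℓ Q hQ
  have h2 := liesOver hℓ Q' hmem
  obtain ⟨g, hg⟩ := exists_smul_eq_of_isGaloisGroup (span {(ℓ : ℤ)}) Q Q' (L ≃ₐ[ℚ] L)
  exact ⟨g, by rw [hg]; exact hQ'o.over.symm⟩

end Count

open Fermat.Agent.Lib.WeakChebotarev.Count in
/-- THE ALGEBRAIC INPUT -/
theorem card_mul_degOneCount (L : Type*) [Field L] [NumberField L] [IsGalois ℚ L]
    (H : Subgroup (L ≃ₐ[ℚ] L)) (ℓ : ℕ) (hℓ : ℓ.Prime) (hunr : ¬ (ℓ : ℤ) ∣ discr L)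
    (Q : Ideal (𝓞 L)) [Q.IsPrime] (hQ : (ℓ : 𝓞 L) ∈ Q) :
    Nat.card H * degOneCount (FixedPoints.intermediateField H : IntermediateField ℚ L) ℓ =
      conjCount (MulAction.stabilizer (L ≃ₐ[ℚ] L) Q) H := by
  classical
  rw [degOneCount, conjCount, ← Nat.card_prod]
  have hex : ∀ P : {P : Ideal (𝓞 (FF L H)) // P.IsPrime ∧ absNorm P = ℓ},
      ∃ g : L ≃ₐ[ℚ] L, (g • Q).under (𝓞 (FF L H)) = P.1 := by
    intro P
    have := P.2.1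
    exact exists_smul_under_eq hℓ Q hQ P.1 P.2.2
  choose gP hgP using hex
  -- the map to primes
  let Φ : {g : L ≃ₐ[ℚ] L // ∀ d ∈ MulAction.stabilizer (L ≃ₐ[ℚ] L) Q, g * d * g⁻¹ ∈ H} →
      {P : Ideal (𝓞 (FF L H)) // P.IsPrime ∧ absNorm P = ℓ} := fun g =>
    ⟨(g.1 • Q).under (𝓞 (FF L H)), inferInstance,
      (absNorm_under_eq_iff hℓ hunr (g.1 • Q) (natCast_mem_smul Q hQ g.1)).mpr
        ((conj_mem_iff Q g.1).mp g.2)⟩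
  have hmemH : ∀ g : {g : L ≃ₐ[ℚ] L // ∀ d ∈ MulAction.stabilizer (L ≃ₐ[ℚ] L) Q,
      g * d * g⁻¹ ∈ H}, g.1 * (gP (Φ g))⁻¹ ∈ H := by
    intro g
    obtain ⟨h, hh, hhg⟩ := exists_mem_smul_eq (H := H) (gP (Φ g) • Q) (g.1 • Q) (hgP (Φ g))
    have hd : g.1⁻¹ * h * gP (Φ g) ∈ MulAction.stabilizer (L ≃ₐ[ℚ] L) Q := by
      rw [MulAction.mem_stabilizer_iff, mul_smul, mul_smul, hhg, inv_smul_smul]
    have h1 := g.2 _ (inv_mem hd)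
    have h2 := mul_mem h1 hh
    have h3 : g.1 * (g.1⁻¹ * h * gP (Φ g))⁻¹ * g.1⁻¹ * h = g.1 * (gP (Φ g))⁻¹ := by group
    rwa [h3] at h2
  have hmemZ : ∀ (h : H) (P : {P : Ideal (𝓞 (FF L H)) // P.IsPrime ∧ absNorm P = ℓ}),
      ∀ d ∈ MulAction.stabilizer (L ≃ₐ[ℚ] L) Q, (h.1 * gP P) * d * (h.1 * gP P)⁻¹ ∈ H := by
    intro h P
    rw [conj_mem_iff, ← absNorm_under_eq_iff hℓ hunr _ (natCast_mem_smul Q hQ _), mul_smul,
      under_smul_of_mem _ h.2, hgP]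
    exact P.2.2
  have hΦ : ∀ (h : H) (P : {P : Ideal (𝓞 (FF L H)) // P.IsPrime ∧ absNorm P = ℓ}),
      Φ ⟨h.1 * gP P, hmemZ h P⟩ = P := by
    intro h P
    apply Subtype.ext
    show ((h.1 * gP P) • Q).under (𝓞 (FF L H)) = P.1
    rw [mul_smul, under_smul_of_mem _ h.2, hgP]
  refine Nat.card_congr ⟨fun x => ⟨x.1.1 * gP x.2, hmemZ x.1 x.2⟩,
    fun g => (⟨g.1 * (gP (Φ g))⁻¹, hmemH g⟩, Φ g), ?_, ?_⟩
  · rintro ⟨h, P⟩
    refine Prod.ext ?_ (hΦ h P)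
    apply Subtype.ext
    show h.1 * gP P * (gP (Φ ⟨h.1 * gP P, hmemZ h P⟩))⁻¹ = h.1
    rw [hΦ h P, mul_inv_cancel_right]
  · intro g
    apply Subtype.ext
    show g.1 * (gP (Φ g))⁻¹ * gP (Φ g) = g.1
    rw [inv_mul_cancel_right]

end Fermat.Agent.Lib.WeakChebotarev
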