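import Fermat.Agent.S14.Analytic.Key

/-!
# Weak Chebotarev, AN2: `∑_P N(P)^(-s) ≤ log ζ_F(s) ≤ ∑_P N(P)^(-s) + ζ_F(2)`
-/

set_option autoImplicit false

namespace Fermat.Agent.Lib.WeakChebotarev

open NumberField Ideal Filter Topology
open scoped nonZeroDivisors
open Fermat.Agent.S14.Analytic (term zetaSum term_pos term_one term_le_half term_anti summable_term
  real_factor prod_inv_le_zetaSum one_sub_term_pos finite_dvd summable_good)

/-- sum of `N(P)^(-s)` over all nonzero prime ideals -/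
noncomputable def primeIdealSum (F : Type*) [Field F] [NumberField F] (s : ℝ) : ℝ :=
  ∑' P : {P : (Ideal (𝓞 F))⁰ // (P : Ideal (𝓞 F)).IsPrime}, term F s P.1

theorem summable_primeIdeal (F : Type*) [Field F] [NumberField F] {s : ℝ} (hs : 1 < s) :
    Summable fun P : {P : (Ideal (𝓞 F))⁰ // (P : Ideal (𝓞 F)).IsPrime} ↦ term F s P.1 :=
  (summable_term F hs).subtype _

namespace EulerLog

theorem exp_le_inv_one_sub {t : ℝ} (ht : t < 1) : Real.exp t ≤ (1 - t)⁻¹ := by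
  have h1 : 0 < 1 - t := by linarith
  have h2 : 1 - t ≤ Real.exp (-t) := by
    have := Real.add_one_le_exp (-t)
    linarith
  rw [Real.exp_neg] at h2
  have h3 : 0 < Real.exp t := Real.exp_pos t
  rw [le_inv_comm₀ h3 h1]
  exact h2

theorem inv_one_sub_le_exp_sq {t : ℝ} (h0 : 0 ≤ t) (h1 : t ≤ 1 / 2) :
    (1 - t)⁻¹ ≤ Real.exp (t + t ^ 2) := by
  have hpos : 0 < 1 - t := by linarith
  have hx : 0 ≤ t + t ^ 2 := by positivity
  have h2 := Real.quadratic_le_exp_of_nonneg hx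
  rw [inv_le_iff_one_le_mul₀ hpos]
  have h3 : 1 ≤ (1 - t) * (1 + (t + t ^ 2) + (t + t ^ 2) ^ 2 / 2) := by
    have e : (1 - t) * (1 + (t + t ^ 2) + (t + t ^ 2) ^ 2 / 2) =
        1 + t ^ 2 / 2 * (1 - t - t ^ 2 - t ^ 3) := by ring
    rw [e]
    have h4 : 0 ≤ 1 - t - t ^ 2 - t ^ 3 := by
      have a2 : t ^ 2 ≤ 1 / 4 := by nlinarith
      have a3 : t ^ 3 ≤ 1 / 8 := by
        have : t ^ 3 = t * t ^ 2 := by ring
        rw [this]
        nlinarith [sq_nonneg t]
      linarith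
    have : 0 ≤ t ^ 2 / 2 * (1 - t - t ^ 2 - t ^ 3) := by positivity
    linarith
  calc (1 : ℝ) ≤ (1 - t) * (1 + (t + t ^ 2) + (t + t ^ 2) ^ 2 / 2) := h3
    _ ≤ (1 - t) * Real.exp (t + t ^ 2) := mul_le_mul_of_nonneg_left h2 hpos.le
    _ = Real.exp (t + t ^ 2) * (1 - t) := mul_comm _ _

variable (F : Type*) [Field F] [NumberField F]

theorem term_sq_le {s : ℝ} (hs : 1 ≤ s) (q : (Ideal (𝓞 F))⁰) :
    term F s q ^ 2 ≤ term F 2 q := by
  have h1 : term F s q ≤ term F 1 q := term_anti F hs q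
  have h0 : 0 < term F s q := term_pos F s q
  have hN : (0 : ℝ) < absNorm (q : Ideal (𝓞 F)) :=
    Nat.cast_pos.mpr (Fermat.Agent.S14.Analytic.absNorm_pos' F q)
  have e : term F 1 q * term F 1 q = term F 2 q := by
    unfold term
    rw [← Real.rpow_add hN]
    norm_num
  calc term F s q ^ 2 = term F s q * term F s q := sq _
    _ ≤ term F 1 q * term F 1 q := mul_le_mul h1 h1 h0.le (h0.le.trans h1)
    _ = term F 2 q := e

theorem one_le_zetaSum {s : ℝ} (hs : 1 < s) : 1 ≤ zetaSum F s := by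
  have h := prod_inv_le_zetaSum (K := F) hs ∅ (by simp)
  simpa using h

/-- a proper nonzero ideal has a prime divisor. -/
theorem exists_prime_dvd (I : (Ideal (𝓞 F))⁰) (hI : I ≠ 1) :
    ∃ q : (Ideal (𝓞 F))⁰, (q : Ideal (𝓞 F)).IsPrime ∧ q ∣ I := by
  have hI' : (I : Ideal (𝓞 F)) ≠ ⊤ := by
    intro h
    apply hI
    ext1
    rw [h, Submonoid.coe_one, Ideal.one_eq_top]
  obtain ⟨M, hM, hle⟩ := Ideal.exists_le_maximal _ hI'
  have hI0 : (I : Ideal (𝓞 F)) ≠ ⊥ := nonZeroDivisors.coe_ne_zero I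
  have hM0 : M ≠ ⊥ := by
    rintro rfl
    exact hI0 (le_bot_iff.mp hle)
  refine ⟨⟨M, mem_nonZeroDivisors_iff_ne_zero.mpr hM0⟩, hM.isPrime, ?_⟩
  rw [nonZeroDivisors_dvd_iff_dvd_coe]
  exact Ideal.dvd_iff_le.mpr hle

theorem sum_le_primeIdealSum {s : ℝ} (hs : 1 < s) (T : Finset (Ideal (𝓞 F))⁰)
    (hT : ∀ q ∈ T, (q : Ideal (𝓞 F)).IsPrime) :
    ∑ q ∈ T, term F s q ≤ primeIdealSum F s := by
  classical
  rw [← Finset.sum_subtype_of_mem (fun q ↦ term F s q) hT]
  exact (summable_primeIdeal F hs).sum_le_tsum _ (fun P _ ↦ (term_pos F s P.1).le)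

/-- for every `ε > 0` a finite set of primes whose removal leaves at most `1 + ε`. -/
theorem exists_finset_sieve_le {s : ℝ} (hs : 1 < s) {ε : ℝ} (hε : 0 < ε) :
    ∃ T : Finset (Ideal (𝓞 F))⁰, (∀ q ∈ T, (q : Ideal (𝓞 F)).IsPrime) ∧
      (∏ q ∈ T, (1 - term F s q)) * zetaSum F s ≤ 1 + ε := by
  classical
  obtain ⟨U, hU⟩ := ((tendsto_tsum_compl_atTop_zero (term F s)).eventually
    (gt_mem_nhds hε)).exists
  have hfin : {q : (Ideal (𝓞 F))⁰ | (q : Ideal (𝓞 F)).IsPrime ∧ ∃ I ∈ U, q ∣ I}.Finite := by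
    refine (Set.Finite.biUnion U.finite_toSet (fun I _ ↦ finite_dvd I)).subset ?_
    rintro q ⟨_, I, hI, hq⟩
    exact Set.mem_biUnion hI hq
  set T := hfin.toFinset with hTdef
  have hT : ∀ q ∈ T, (q : Ideal (𝓞 F)).IsPrime :=
    fun q hq ↦ ((hfin.mem_toFinset).mp hq).1
  refine ⟨T, hT, ?_⟩
  obtain ⟨good, hgood⟩ : ∃ g : (Ideal (𝓞 F))⁰ → Prop, g = fun I ↦ ∀ q ∈ T, ¬ (q ∣ I) := ⟨_, rfl⟩
  have hZ : (∏ q ∈ T, (1 - term F s q)) * zetaSum F s =
      ∑' I : (Ideal (𝓞 F))⁰, if good I then term F s I else 0 := by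
    subst hgood
    rw [real_factor hs T hT]
    refine tsum_congr fun I ↦ ?_
    congr
  rw [hZ]
  have hpt : ∀ I : (Ideal (𝓞 F))⁰, (if good I then term F s I else 0) ≤
      (if I = 1 then (1 : ℝ) else 0) + Set.indicator {x | x ∉ U} (term F s) I := by
    intro I
    have hind : 0 ≤ Set.indicator {x | x ∉ U} (term F s) I :=
      Set.indicator_nonneg (fun J _ ↦ (term_pos F s J).le) I
    by_cases hg : good I
    · rw [if_pos hg]
      by_cases h1 : I = 1
      · rw [if_pos h1, h1, term_one]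
        rw [h1] at hind
        linarith
      · rw [if_neg h1, zero_add]
        have hIU : I ∉ U := by
          intro hIU
          obtain ⟨q, hq, hqI⟩ := exists_prime_dvd F I h1
          rw [hgood] at hg
          exact hg q ((hfin.mem_toFinset).mpr ⟨hq, I, hIU, hqI⟩) hqI
        have hmem : I ∈ {x : (Ideal (𝓞 F))⁰ | x ∉ U} := hIU
        rw [Set.indicator_of_mem hmem]
    · rw [if_neg hg]
      have : (0 : ℝ) ≤ if I = 1 then (1 : ℝ) else 0 := by split_ifs <;> norm_num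
      linarith
  have hs1 : Summable fun I : (Ideal (𝓞 F))⁰ ↦ if I = 1 then (1 : ℝ) else 0 :=
    (hasSum_ite_eq (1 : (Ideal (𝓞 F))⁰) (1 : ℝ)).summable
  have hs2 : Summable (Set.indicator {x : (Ideal (𝓞 F))⁰ | x ∉ U} (term F s)) :=
    (summable_term F hs).indicator _
  have htail : ∑' I, Set.indicator {x : (Ideal (𝓞 F))⁰ | x ∉ U} (term F s) I < ε := by
    rw [← tsum_subtype {x : (Ideal (𝓞 F))⁰ | x ∉ U} (term F s)]
    exact hU
  have hsg : Summable fun I : (Ideal (𝓞 F))⁰ ↦ if good I then term F s I else 0 :=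
    summable_good hs good
  calc ∑' I : (Ideal (𝓞 F))⁰, (if good I then term F s I else 0)
      ≤ ∑' I : (Ideal (𝓞 F))⁰, ((if I = 1 then (1 : ℝ) else 0) +
          Set.indicator {x | x ∉ U} (term F s) I) :=
        hsg.tsum_le_tsum hpt (hs1.add hs2)
    _ = 1 + ∑' I, Set.indicator {x : (Ideal (𝓞 F))⁰ | x ∉ U} (term F s) I := by
        rw [hs1.tsum_add hs2, tsum_ite_eq]
    _ ≤ 1 + ε := by linarith

end EulerLog

open EulerLog

theorem primeIdealSum_le_log (F : Type*) [Field F] [NumberField F] {s : ℝ} (hs : 1 < s) :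
    primeIdealSum F s ≤ Real.log (zetaSum F s) := by
  classical
  refine (summable_primeIdeal F hs).tsum_le_of_sum_le fun T' ↦ ?_
  set T : Finset (Ideal (𝓞 F))⁰ := T'.map (Function.Embedding.subtype _) with hTdef
  have hT : ∀ q ∈ T, (q : Ideal (𝓞 F)).IsPrime := by
    intro q hq
    obtain ⟨P, _, rfl⟩ := Finset.mem_map.mp hq
    exact P.2
  have hsum : ∑ P ∈ T', term F s P.1 = ∑ q ∈ T, term F s q := by
    rw [hTdef, Finset.sum_map]
    rfl
  rw [hsum]
  have h1 : Real.exp (∑ q ∈ T, term F s q) ≤ ∏ q ∈ T, (1 - term F s q)⁻¹ := by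
    rw [Real.exp_sum]
    refine Finset.prod_le_prod (fun q _ ↦ (Real.exp_pos _).le) fun q hq ↦ ?_
    have := one_sub_term_pos hs q (hT q hq)
    exact exp_le_inv_one_sub (by linarith)
  have h2 := h1.trans (prod_inv_le_zetaSum hs T hT)
  calc ∑ q ∈ T, term F s q = Real.log (Real.exp (∑ q ∈ T, term F s q)) := (Real.log_exp _).symm
    _ ≤ Real.log (zetaSum F s) := Real.log_le_log (Real.exp_pos _) h2

theorem log_le_primeIdealSum (F : Type*) [Field F] [NumberField F] {s : ℝ} (hs : 1 < s) :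
    Real.log (zetaSum F s) ≤ primeIdealSum F s + zetaSum F 2 := by
  classical
  refine le_of_forall_pos_le_add fun ε hε ↦ ?_
  obtain ⟨T, hT, hle⟩ := exists_finset_sieve_le F hs hε
  have hz : 0 < zetaSum F s := lt_of_lt_of_le one_pos (one_le_zetaSum F hs)
  have hpos : 0 < ∏ q ∈ T, (1 - term F s q) :=
    Finset.prod_pos fun q hq ↦ one_sub_term_pos hs q (hT q hq)
  have h1 : zetaSum F s ≤ (1 + ε) * ∏ q ∈ T, (1 - term F s q)⁻¹ := by
    rw [Finset.prod_inv_distrib, ← div_eq_mul_inv, le_div_iff₀ hpos, mul_comm]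
    exact hle
  have h2 : ∏ q ∈ T, (1 - term F s q)⁻¹ ≤
      Real.exp (∑ q ∈ T, (term F s q + term F s q ^ 2)) := by
    rw [Real.exp_sum]
    refine Finset.prod_le_prod (fun q hq ↦ (inv_pos.mpr (one_sub_term_pos hs q (hT q hq))).le)
      fun q hq ↦ ?_
    exact inv_one_sub_le_exp_sq (term_pos F s q).le (term_le_half F hs.le q (hT q hq).ne_top)
  have h3 : ∑ q ∈ T, (term F s q + term F s q ^ 2) ≤ primeIdealSum F s + zetaSum F 2 := by
    rw [Finset.sum_add_distrib]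
    refine add_le_add (sum_le_primeIdealSum F hs T hT) ?_
    calc ∑ q ∈ T, term F s q ^ 2 ≤ ∑ q ∈ T, term F 2 q :=
          Finset.sum_le_sum fun q _ ↦ term_sq_le F hs.le q
      _ ≤ zetaSum F 2 :=
          (summable_term F (by norm_num)).sum_le_tsum _ (fun q _ ↦ (term_pos F 2 q).le)
  have h4 : zetaSum F s ≤ (1 + ε) * Real.exp (primeIdealSum F s + zetaSum F 2) :=
    h1.trans (mul_le_mul_of_nonneg_left (h2.trans (Real.exp_le_exp.mpr h3)) (by linarith))
  have h5 : Real.log (1 + ε) ≤ ε := by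
    have := Real.log_le_sub_one_of_pos (show 0 < 1 + ε by linarith)
    linarith
  calc Real.log (zetaSum F s)
      ≤ Real.log ((1 + ε) * Real.exp (primeIdealSum F s + zetaSum F 2)) :=
        Real.log_le_log hz h4
    _ = Real.log (1 + ε) + (primeIdealSum F s + zetaSum F 2) := by
        rw [Real.log_mul (by linarith) (Real.exp_pos _).ne', Real.log_exp]
    _ ≤ primeIdealSum F s + zetaSum F 2 + ε := by linarith

end Fermat.Agent.Lib.WeakChebotarev
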