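import Fermat.Agent.S14.Analytic.Basic

/-!
# Weak Chebotarev, AN1: `log ζ_F(s) = log (1/(s-1)) + O(1)` as `s → 1⁺`
-/

set_option autoImplicit false

namespace Fermat.Agent.Lib.WeakChebotarev

open NumberField Ideal Filter Topology
open scoped nonZeroDivisors
open Fermat.Agent.S14.Analytic (term zetaSum)

/-- `log ζ_F(s) = log (1/(s-1)) + O(1)` -/
theorem log_zetaSum_bound (F : Type*) [Field F] [NumberField F] :
    ∃ C : ℝ, ∀ᶠ s in 𝓝[>] (1 : ℝ), |Real.log (zetaSum F s) - Real.log (1 / (s - 1))| ≤ C := by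
  have hr : 0 < dedekindZeta_residue F := dedekindZeta_residue_pos F
  set r := dedekindZeta_residue F with hrdef
  have h := Fermat.Agent.S14.Analytic.tendsto_zetaSum F
  have h1 : ∀ᶠ s in 𝓝[>] (1 : ℝ), r / 2 < (s - 1) * zetaSum F s :=
    h.eventually (lt_mem_nhds (by linarith))
  have h2 : ∀ᶠ s in 𝓝[>] (1 : ℝ), (s - 1) * zetaSum F s < 2 * r :=
    h.eventually (gt_mem_nhds (by linarith))
  refine ⟨max |Real.log (r / 2)| |Real.log (2 * r)|, ?_⟩
  filter_upwards [h1, h2, self_mem_nhdsWithin] with s hs1 hs2 hs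
  have hs' : 0 < s - 1 := sub_pos.mpr hs
  have hprod : 0 < (s - 1) * zetaSum F s := lt_trans (by linarith) hs1
  have hz : 0 < zetaSum F s := (pos_iff_pos_of_mul_pos hprod).mp hs'
  have e : Real.log (zetaSum F s) - Real.log (1 / (s - 1)) =
      Real.log ((s - 1) * zetaSum F s) := by
    rw [Real.log_mul hs'.ne' hz.ne', one_div, Real.log_inv]
    ring
  rw [e]
  have l1 : Real.log (r / 2) ≤ Real.log ((s - 1) * zetaSum F s) :=
    Real.log_le_log (by linarith) hs1.le
  have l2 : Real.log ((s - 1) * zetaSum F s) ≤ Real.log (2 * r) :=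
    Real.log_le_log hprod hs2.le
  rw [abs_le]
  constructor
  · have := neg_abs_le (Real.log (r / 2))
    have := le_max_left |Real.log (r / 2)| |Real.log (2 * r)|
    linarith
  · have := le_abs_self (Real.log (2 * r))
    have := le_max_right |Real.log (r / 2)| |Real.log (2 * r)|
    linarith

end Fermat.Agent.Lib.WeakChebotarev
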