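import Fermat.Agent.Lib.WeakChebotarev.DegOneBase
import Fermat.Agent.Lib.WeakChebotarev.LogZeta
import Fermat.Agent.Lib.WeakChebotarev.EulerLog

/-!
# Weak Chebotarev, AN3: the analytic input `degOneSum F s = log (1/(s-1)) + O(1)`
-/

set_option autoImplicit false

namespace Fermat.Agent.Lib.WeakChebotarev

open NumberField Ideal Filter Topology
open scoped nonZeroDivisors Pointwise
open Fermat.Agent.S14.Analytic (term zetaSum)

theorem primeIdealSum_sub_degOneSum (F : Type*) [Field F] [NumberField F] :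
    ∃ C : ℝ, ∀ s : ℝ, 1 < s → |primeIdealSum F s - degOneSum F s| ≤ C :=
  DegOne.tsum_prime_sub_degOneSum F

/-- THE ANALYTIC INPUT -/
theorem degOneSum_bound (F : Type*) [Field F] [NumberField F] :
    ∃ C : ℝ, ∀ᶠ s in 𝓝[>] (1 : ℝ), |degOneSum F s - Real.log (1 / (s - 1))| ≤ C := by
  obtain ⟨C0, h0⟩ := log_zetaSum_bound F
  obtain ⟨C1, h1⟩ := primeIdealSum_sub_degOneSum F
  refine ⟨C1 + zetaSum F 2 + C0, ?_⟩
  have hgt : ∀ᶠ s in 𝓝[>] (1 : ℝ), 1 < s := eventually_mem_nhdsWithin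
  filter_upwards [h0, hgt] with s hs0 hs
  have a1 := h1 s hs
  have a2 := primeIdealSum_le_log F hs
  have a3 := log_le_primeIdealSum F hs
  rw [abs_le] at a1 hs0 ⊢
  constructor <;> linarith [a1.1, a1.2, hs0.1, hs0.2,
    Fermat.Agent.S14.Analytic.zetaSum_nonneg F 2]

end Fermat.Agent.Lib.WeakChebotarev
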