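import Fermat.Agent.Lib.WeakChebotarev.Defs
import Fermat.Agent.S14.Analytic.Basic
import Fermat.Agent.S14.Analytic.NonPrimeNorm

/-!
# Weak Chebotarev, AN3 (part independent of the logarithm estimates)

From prime ideals to rational primes: the sum of `N(P)^(-s)` over all nonzero prime ideals differs
from `degOneSum F s` by a bounded amount.
-/

set_option autoImplicit false

namespace Fermat.Agent.Lib.WeakChebotarev

open NumberField Ideal Filter Topology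
open scoped nonZeroDivisors Pointwise
open Fermat.Agent.S14.Analytic (term zetaSum)

namespace DegOne

variable (F : Type*) [Field F] [NumberField F]

/-- the type of prime ideals of norm `ℓ` -/
abbrev Z (ℓ : ℕ) : Type _ := {P : Ideal (𝓞 F) // P.IsPrime ∧ absNorm P = ℓ}

variable {F}

theorem liesOver_of_absNorm_eq {ℓ : ℕ} (hℓ : ℓ.Prime) {P : Ideal (𝓞 F)} (hP : P.IsPrime)
    (hN : absNorm P = ℓ) : P.LiesOver (span {(ℓ : ℤ)}) := by
  have hmem : ((ℓ : ℤ) : 𝓞 F) ∈ P := by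
    have := Ideal.absNorm_mem P
    rw [hN] at this
    simpa using this
  have hle : span {(ℓ : ℤ)} ≤ P.under ℤ := by
    rw [Ideal.span_singleton_le_iff_mem, Ideal.mem_comap]
    simpa using hmem
  have hmax : (span {(ℓ : ℤ)} : Ideal ℤ).IsMaximal :=
    haveI : Fact ℓ.Prime := ⟨hℓ⟩
    Int.ideal_span_isMaximal_of_prime ℓ
  have hne : P.under ℤ ≠ ⊤ := (Ideal.IsPrime.under ℤ P).ne_top
  exact ⟨hmax.eq_of_le hne hle⟩

theorem span_ne_bot {ℓ : ℕ} (hℓ : ℓ.Prime) : (span {(ℓ : ℤ)} : Ideal ℤ) ≠ ⊥ := by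
  simpa using hℓ.ne_zero

/-- the map from prime ideals of norm `ℓ` to the primes over `ℓ`. -/
noncomputable def toOver {ℓ : ℕ} (hℓ : ℓ.Prime) (P : Z F ℓ) :
    (IsDedekindDomain.primesOverFinset (span {(ℓ : ℤ)}) (𝓞 F) : Finset (Ideal (𝓞 F))) :=
  haveI : Fact ℓ.Prime := ⟨hℓ⟩
  ⟨P.1, (IsDedekindDomain.mem_primesOverFinset_iff (span_ne_bot hℓ) _).2
    ⟨P.2.1, liesOver_of_absNorm_eq hℓ P.2.1 P.2.2⟩⟩

theorem toOver_injective {ℓ : ℕ} (hℓ : ℓ.Prime) : Function.Injective (toOver (F := F) hℓ) := by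
  intro a b h
  have h' : (toOver hℓ a).1 = (toOver hℓ b).1 := congrArg Subtype.val h
  exact Subtype.ext h'

theorem finite_Z {ℓ : ℕ} (hℓ : ℓ.Prime) : Finite (Z F ℓ) :=
  Finite.of_injective _ (toOver_injective hℓ)

end DegOne

open DegOne

theorem degOneCount_le (F : Type*) [Field F] [NumberField F] (ℓ : ℕ) (hℓ : ℓ.Prime) :
    degOneCount F ℓ ≤ Module.finrank ℚ F := by
  have : Fact ℓ.Prime := ⟨hℓ⟩
  have h1 : degOneCount F ℓ ≤
      Nat.card (IsDedekindDomain.primesOverFinset (span {(ℓ : ℤ)}) (𝓞 F) : Finset (Ideal (𝓞 F))) :=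
    Nat.card_le_card_of_injective _ (toOver_injective hℓ)
  refine h1.trans ?_
  rw [Nat.card_eq_fintype_card, Fintype.card_coe]
  exact Ideal.card_primesOverFinset_le_finrank (R := ℤ) (S := 𝓞 F) (K := ℚ) (L := F)
    (p := span {(ℓ : ℤ)}) (span_ne_bot hℓ)

theorem summable_degOne (F : Type*) [Field F] [NumberField F] {s : ℝ} (hs : 1 < s) :
    Summable fun ℓ : Nat.Primes ↦ (degOneCount F (ℓ : ℕ) : ℝ) * ((ℓ : ℕ) : ℝ) ^ (-s) := by
  have h : Summable fun ℓ : Nat.Primes ↦ (Module.finrank ℚ F : ℝ) * ((ℓ : ℕ) : ℝ) ^ (-s) :=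
    (Nat.Primes.summable_rpow.2 (by linarith)).mul_left _
  refine Summable.of_nonneg_of_le (fun ℓ ↦ by positivity) (fun ℓ ↦ ?_) h
  apply mul_le_mul_of_nonneg_right _ (by positivity)
  exact_mod_cast degOneCount_le F ℓ ℓ.2

namespace DegOne

variable (F : Type*) [Field F] [NumberField F]

open Classical in
/-- summand: prime ideals of prime norm -/
noncomputable def fA (s : ℝ) (P : (Ideal (𝓞 F))⁰) : ℝ :=
  if (P : Ideal (𝓞 F)).IsPrime ∧ (absNorm (P : Ideal (𝓞 F))).Prime then term F s P else 0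

open Classical in
/-- summand: prime ideals of non-prime norm -/
noncomputable def fB (s : ℝ) (P : (Ideal (𝓞 F))⁰) : ℝ :=
  if (P : Ideal (𝓞 F)).IsPrime ∧ ¬ (absNorm (P : Ideal (𝓞 F))).Prime then term F s P else 0

theorem term_nonneg (s : ℝ) (P : (Ideal (𝓞 F))⁰) : 0 ≤ term F s P :=
  (Fermat.Agent.S14.Analytic.term_pos F s P).le

theorem fA_nonneg (s : ℝ) (P : (Ideal (𝓞 F))⁰) : 0 ≤ fA F s P := by
  unfold fA; split_ifs
  · exact term_nonneg F s P
  · exact le_rfl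

theorem fB_nonneg (s : ℝ) (P : (Ideal (𝓞 F))⁰) : 0 ≤ fB F s P := by
  unfold fB; split_ifs
  · exact term_nonneg F s P
  · exact le_rfl

theorem fA_le (s : ℝ) (P : (Ideal (𝓞 F))⁰) : fA F s P ≤ term F s P := by
  unfold fA; split_ifs
  · exact le_rfl
  · exact term_nonneg F s P

theorem fB_le (s : ℝ) (P : (Ideal (𝓞 F))⁰) : fB F s P ≤ term F s P := by
  unfold fB; split_ifs
  · exact le_rfl
  · exact term_nonneg F s P

theorem summable_fA {s : ℝ} (hs : 1 < s) : Summable (fA F s) :=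
  Summable.of_nonneg_of_le (fA_nonneg F s) (fA_le F s) (Fermat.Agent.S14.Analytic.summable_term F hs)

theorem summable_fB {s : ℝ} (hs : 1 < s) : Summable (fB F s) :=
  Summable.of_nonneg_of_le (fB_nonneg F s) (fB_le F s) (Fermat.Agent.S14.Analytic.summable_term F hs)

/-- the sum over prime ideals splits -/
theorem tsum_prime_eq {s : ℝ} (hs : 1 < s) :
    ∑' P : {P : (Ideal (𝓞 F))⁰ // (P : Ideal (𝓞 F)).IsPrime}, term F s P.1 =
      ∑' P, fA F s P + ∑' P, fB F s P := by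
  classical
  rw [← (summable_fA F hs).tsum_add (summable_fB F hs)]
  have := tsum_subtype {P : (Ideal (𝓞 F))⁰ | (P : Ideal (𝓞 F)).IsPrime} (term F s)
  refine this.trans ?_
  refine tsum_congr fun P ↦ ?_
  unfold fA fB Set.indicator
  by_cases h1 : (P : Ideal (𝓞 F)).IsPrime <;> by_cases h2 : (absNorm (P : Ideal (𝓞 F))).Prime <;>
    simp [h1, h2]

/-- the embedding of pairs (rational prime, prime ideal of that norm) in the nonzero ideals -/
noncomputable def emb (x : Σ ℓ : Nat.Primes, Z F (ℓ : ℕ)) : (Ideal (𝓞 F))⁰ :=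
  ⟨x.2.1, mem_nonZeroDivisors_iff_ne_zero.2 (by
    intro h
    have h2 := x.2.2.2
    rw [h] at h2
    simp at h2
    exact x.1.2.ne_zero h2.symm)⟩

theorem emb_injective : Function.Injective (emb F) := by
  rintro ⟨ℓ, P⟩ ⟨ℓ', P'⟩ h
  have h1 : P.1 = P'.1 := congrArg Subtype.val h
  have h2 : (ℓ : ℕ) = ℓ' := by rw [← P.2.2, ← P'.2.2, h1]
  have h3 : ℓ = ℓ' := Subtype.ext h2
  subst h3
  have : P = P' := Subtype.ext h1
  rw [this]

theorem fA_emb (s : ℝ) (x : Σ ℓ : Nat.Primes, Z F (ℓ : ℕ)) :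
    fA F s (emb F x) = ((x.1 : ℕ) : ℝ) ^ (-s) := by
  have h1 : ((emb F x : (Ideal (𝓞 F))⁰) : Ideal (𝓞 F)) = x.2.1 := rfl
  unfold fA term
  rw [h1, x.2.2.2, if_pos ⟨x.2.2.1, x.1.2⟩]

theorem support_fA_subset (s : ℝ) : Function.support (fA F s) ⊆ Set.range (emb F) := by
  intro P hP
  have hP' : (P : Ideal (𝓞 F)).IsPrime ∧ (absNorm (P : Ideal (𝓞 F))).Prime := by
    by_contra h
    apply hP
    unfold fA
    rw [if_neg h]
  exact ⟨⟨⟨_, hP'.2⟩, ⟨P.1, hP'.1, rfl⟩⟩, Subtype.ext rfl⟩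

theorem tsum_fA_eq {s : ℝ} (hs : 1 < s) : ∑' P, fA F s P = degOneSum F s := by
  rw [← (emb_injective F).tsum_eq (support_fA_subset F s)]
  have hsum : Summable fun x : Σ ℓ : Nat.Primes, Z F (ℓ : ℕ) ↦ fA F s (emb F x) :=
    (summable_fA F hs).comp_injective (emb_injective F)
  have hfin : ∀ ℓ : Nat.Primes, Finite (Z F (ℓ : ℕ)) := fun ℓ ↦ finite_Z ℓ.2
  rw [hsum.tsum_sigma' (fun ℓ ↦ Summable.of_finite)]
  unfold degOneSum
  refine tsum_congr fun ℓ ↦ ?_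
  simp only [fA_emb]
  rw [tsum_const, nsmul_eq_mul]
  rfl

/-- the contribution of primes of non-prime norm is bounded -/
theorem tsum_fB_le {s : ℝ} (hs : 1 < s) :
    ∑' P, fB F s P ≤ (Module.finrank ℚ F : ℝ) * ∑' k : ℕ, 1 / (k : ℝ) ^ 2 := by
  classical
  have hsum : Summable (fun k : ℕ => 1 / (k : ℝ) ^ 2) :=
    Real.summable_one_div_nat_pow.2 (by norm_num)
  refine Real.tsum_le_of_sum_le (fB_nonneg F s) fun T' ↦ ?_
  set T := T'.filter fun P : (Ideal (𝓞 F))⁰ ↦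
    (P : Ideal (𝓞 F)).IsPrime ∧ ¬ (absNorm (P : Ideal (𝓞 F))).Prime with hTdef
  have hT : ∀ q ∈ T, (q : Ideal (𝓞 F)).IsPrime ∧ ¬ (absNorm (q : Ideal (𝓞 F))).Prime :=
    fun q hq ↦ (Finset.mem_filter.1 hq).2
  have h1 : ∑ P ∈ T', fB F s P = ∑ P ∈ T, term F s P := by
    rw [hTdef, Finset.sum_filter]
    rfl
  rw [h1]
  have hterm : ∀ q ∈ T,
      term F s q ≤ 1 / (Fermat.Agent.S14.Analytic.primeUnder F (q : Ideal (𝓞 F)) : ℝ) ^ 2 := by
    intro q hq
    have h0 : (q : Ideal (𝓞 F)) ≠ ⊥ := nonZeroDivisors.coe_ne_zero q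
    have hp := Fermat.Agent.S14.Analytic.primeUnder_prime (hT q hq).1 h0
    have hle := Fermat.Agent.S14.Analytic.sq_primeUnder_le_absNorm (hT q hq).1 h0 (hT q hq).2
    have hle' : ((Fermat.Agent.S14.Analytic.primeUnder F (q : Ideal (𝓞 F)) : ℝ)) ^ 2 ≤
        (absNorm (q : Ideal (𝓞 F)) : ℝ) := by
      exact_mod_cast hle
    have hpos : (0 : ℝ) < (Fermat.Agent.S14.Analytic.primeUnder F (q : Ideal (𝓞 F)) : ℝ) ^ 2 := by
      have : (0 : ℝ) < (Fermat.Agent.S14.Analytic.primeUnder F (q : Ideal (𝓞 F)) : ℝ) := by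
        exact_mod_cast hp.pos
      positivity
    have hN1 : (1 : ℝ) ≤ (absNorm (q : Ideal (𝓞 F)) : ℝ) :=
      Fermat.Agent.S14.Analytic.one_le_absNorm F q
    unfold term
    calc (absNorm (q : Ideal (𝓞 F)) : ℝ) ^ (-s)
        ≤ (absNorm (q : Ideal (𝓞 F)) : ℝ) ^ (-1 : ℝ) :=
          Real.rpow_le_rpow_of_exponent_le hN1 (by linarith)
      _ = 1 / (absNorm (q : Ideal (𝓞 F)) : ℝ) := by rw [Real.rpow_neg_one, one_div]
      _ ≤ 1 / (Fermat.Agent.S14.Analytic.primeUnder F (q : Ideal (𝓞 F)) : ℝ) ^ 2 :=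
          one_div_le_one_div_of_le hpos hle'
  calc ∑ q ∈ T, term F s q
      ≤ ∑ q ∈ T, 1 / (Fermat.Agent.S14.Analytic.primeUnder F (q : Ideal (𝓞 F)) : ℝ) ^ 2 :=
        Finset.sum_le_sum fun q hq => hterm q hq
    _ = ∑ ℓ ∈ T.image (fun q : (Ideal (𝓞 F))⁰ =>
            Fermat.Agent.S14.Analytic.primeUnder F (q : Ideal (𝓞 F))),
          (T.filter fun q : (Ideal (𝓞 F))⁰ =>
            Fermat.Agent.S14.Analytic.primeUnder F (q : Ideal (𝓞 F)) = ℓ).card • (1 / (ℓ : ℝ) ^ 2) :=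
        Finset.sum_comp (fun ℓ : ℕ => 1 / (ℓ : ℝ) ^ 2)
          (fun q : (Ideal (𝓞 F))⁰ => Fermat.Agent.S14.Analytic.primeUnder F (q : Ideal (𝓞 F)))
    _ ≤ ∑ ℓ ∈ T.image (fun q : (Ideal (𝓞 F))⁰ =>
            Fermat.Agent.S14.Analytic.primeUnder F (q : Ideal (𝓞 F))),
          (Module.finrank ℚ F : ℝ) * (1 / (ℓ : ℝ) ^ 2) := by
        apply Finset.sum_le_sum
        intro ℓ _
        rw [nsmul_eq_mul]
        apply mul_le_mul_of_nonneg_right _ (by positivity)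
        exact_mod_cast Fermat.Agent.S14.Analytic.card_filter_primeUnder_le T
          (fun q hq => (hT q hq).1) ℓ
    _ = (Module.finrank ℚ F : ℝ) *
          ∑ ℓ ∈ T.image (fun q : (Ideal (𝓞 F))⁰ =>
            Fermat.Agent.S14.Analytic.primeUnder F (q : Ideal (𝓞 F))), 1 / (ℓ : ℝ) ^ 2 := by
        rw [Finset.mul_sum]
    _ ≤ (Module.finrank ℚ F : ℝ) * ∑' k : ℕ, 1 / (k : ℝ) ^ 2 := by
        apply mul_le_mul_of_nonneg_left _ (by positivity)
        exact hsum.sum_le_tsum _ (fun k _ => by positivity)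

/-- explicit form of `primeIdealSum_sub_degOneSum` -/
theorem tsum_prime_sub_degOneSum :
    ∃ C : ℝ, ∀ s : ℝ, 1 < s →
      |∑' P : {P : (Ideal (𝓞 F))⁰ // (P : Ideal (𝓞 F)).IsPrime}, term F s P.1 - degOneSum F s|
        ≤ C := by
  refine ⟨(Module.finrank ℚ F : ℝ) * ∑' k : ℕ, 1 / (k : ℝ) ^ 2, fun s hs ↦ ?_⟩
  rw [tsum_prime_eq F hs, tsum_fA_eq F hs, add_sub_cancel_left,
    abs_of_nonneg (tsum_nonneg (fB_nonneg F s))]
  exact tsum_fB_le F hs

end DegOne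

end Fermat.Agent.Lib.WeakChebotarev
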