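import Fermat.Agent.Lib.WeakChebotarev.NumberFieldOf
import Fermat.Agent.Lib.WeakChebotarev.DegOne
import Fermat.Agent.Lib.WeakChebotarev.Count

/-!
# Weak Chebotarev for a finite Galois extension `L/ℚ`

For every `σ ∈ Gal(L/ℚ)` and every finite set `T` of primes there is a prime `ℓ ∉ T`, unramified
in `L`, and a prime `Q` of `𝓞 L` above `ℓ` whose decomposition group is exactly `⟨σ⟩`.
-/

set_option autoImplicit false

namespace Fermat.Agent.Lib.WeakChebotarev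

open NumberField Ideal
open scoped Pointwise

theorem exists_stabilizer_eq_zpowers (L : Type*) [Field L] [NumberField L] [IsGalois ℚ L]
    (σ : L ≃ₐ[ℚ] L) (T : Finset ℕ) :
    ∃ ℓ : ℕ, ℓ.Prime ∧ ℓ ∉ T ∧ ¬ (ℓ : ℤ) ∣ discr L ∧ ∃ Q : Ideal (𝓞 L), Q.IsPrime ∧
      (ℓ : 𝓞 L) ∈ Q ∧ MulAction.stabilizer (L ≃ₐ[ℚ] L) Q = Subgroup.zpowers σ :=
  exists_stabilizer_eq_zpowers_of L (fun F ↦ degOneSum_bound F)
    (fun F _ hs ↦ summable_degOne F hs) (fun F ℓ hℓ ↦ degOneCount_le F ℓ hℓ)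
    (fun H ℓ hℓ hunr Q _ hQ ↦ card_mul_degOneCount L H ℓ hℓ hunr Q hQ) σ T

end Fermat.Agent.Lib.WeakChebotarev
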