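import Fermat.Agent.Lib.WeakChebotarev.Abstract

/-!
# Weak Chebotarev for a Galois number field, from the analytic and the algebraic input

`exists_stabilizer_eq_zpowers_of` : assembly of `abstract_density` with
* the analytic input `∑_ℓ #{P ⊂ 𝓞 F : N P = ℓ} ℓ^(-s) = log (1/(s-1)) + O(1)` for the subfields `F`,
* the algebraic input `|H| * #{P ⊂ 𝓞 (L^H) : N P = ℓ} = #{g | g Stab(Q) g⁻¹ ≤ H}`,
both taken as hypotheses here.
-/

set_option autoImplicit false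

namespace Fermat.Agent.Lib.WeakChebotarev

open NumberField Ideal Filter Topology
open scoped Pointwise

theorem tendsto_log_one_div_sub_one :
    Tendsto (fun s : ℝ ↦ Real.log (1 / (s - 1))) (𝓝[>] (1 : ℝ)) atTop := by
  refine Real.tendsto_log_atTop.comp ?_
  have h1 : Tendsto (fun s : ℝ ↦ s - 1) (𝓝[>] (1 : ℝ)) (𝓝[>] (0 : ℝ)) := by
    refine tendsto_nhdsWithin_iff.mpr ⟨?_, ?_⟩
    · have : Tendsto (fun s : ℝ ↦ s - 1) (𝓝 (1 : ℝ)) (𝓝 (1 - 1)) :=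
        (continuous_id.sub continuous_const).tendsto 1
      rw [sub_self] at this
      exact this.mono_left nhdsWithin_le_nhds
    · filter_upwards [self_mem_nhdsWithin] with s hs
      exact sub_pos.mpr (Set.mem_Ioi.mp hs)
  have h2 := tendsto_inv_nhdsGT_zero.comp h1
  refine h2.congr fun s ↦ ?_
  simp [one_div]

theorem exists_prime_ideal_mem (L : Type*) [Field L] [NumberField L] (ℓ : ℕ) (hℓ : ℓ.Prime) :
    ∃ Q : Ideal (𝓞 L), Q.IsPrime ∧ (ℓ : 𝓞 L) ∈ Q := by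
  have hp : (span {(ℓ : ℤ)}).IsPrime :=
    (span_singleton_prime (by exact_mod_cast hℓ.ne_zero)).mpr (Nat.prime_iff_prime_int.mp hℓ)
  obtain ⟨⟨Q, hQ1, hQ2⟩⟩ : Nonempty (primesOver (span {(ℓ : ℤ)}) (𝓞 L)) := inferInstance
  refine ⟨Q, hQ1, ?_⟩
  have := (mem_of_liesOver Q (span {(ℓ : ℤ)}) (ℓ : ℤ)).mp (mem_span_singleton_self _)
  simpa using this

theorem finite_primes_dvd_discr (L : Type*) [Field L] [NumberField L] :
    {ℓ : Nat.Primes | ((ℓ : ℕ) : ℤ) ∣ discr L}.Finite := by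
  have hfin : ((discr L).natAbs.divisors : Set ℕ).Finite := Finset.finite_toSet _
  refine Set.Finite.of_finite_image (f := fun ℓ : Nat.Primes ↦ (ℓ : ℕ)) (hfin.subset ?_)
    (fun a _ b _ h ↦ Subtype.ext h)
  rintro _ ⟨ℓ, hℓ, rfl⟩
  simp only [Finset.mem_coe, Nat.mem_divisors]
  exact ⟨Int.natCast_dvd.mp hℓ, by simpa using discr_ne_zero L⟩

theorem exists_stabilizer_eq_zpowers_of (L : Type*) [Field L] [NumberField L] [IsGalois ℚ L]
    (hAN : ∀ F : IntermediateField ℚ L, ∃ C : ℝ, ∀ᶠ s in 𝓝[>] (1 : ℝ),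
      |degOneSum F s - Real.log (1 / (s - 1))| ≤ C)
    (hsum : ∀ (F : IntermediateField ℚ L) (s : ℝ), 1 < s →
      Summable fun ℓ : Nat.Primes ↦ (degOneCount F (ℓ : ℕ) : ℝ) * ((ℓ : ℕ) : ℝ) ^ (-s))
    (hle : ∀ (F : IntermediateField ℚ L) (ℓ : ℕ), ℓ.Prime →
      degOneCount F ℓ ≤ Module.finrank ℚ F)
    (hALG : ∀ (H : Subgroup (L ≃ₐ[ℚ] L)) (ℓ : ℕ), ℓ.Prime → ¬ (ℓ : ℤ) ∣ discr L →
      ∀ (Q : Ideal (𝓞 L)) [Q.IsPrime], (ℓ : 𝓞 L) ∈ Q →
      Nat.card H * degOneCount (FixedPoints.intermediateField H : IntermediateField ℚ L) ℓ =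
        conjCount (MulAction.stabilizer (L ≃ₐ[ℚ] L) Q) H)
    (σ : L ≃ₐ[ℚ] L) (T : Finset ℕ) :
    ∃ ℓ : ℕ, ℓ.Prime ∧ ℓ ∉ T ∧ ¬ (ℓ : ℤ) ∣ discr L ∧ ∃ Q : Ideal (𝓞 L), Q.IsPrime ∧
      (ℓ : 𝓞 L) ∈ Q ∧ MulAction.stabilizer (L ≃ₐ[ℚ] L) Q = Subgroup.zpowers σ := by
  classical
  choose Q hQp hQm using fun ℓ : Nat.Primes ↦ exists_prime_ideal_mem L (ℓ : ℕ) ℓ.2
  set D : Nat.Primes → Subgroup (L ≃ₐ[ℚ] L) := fun ℓ ↦ MulAction.stabilizer (L ≃ₐ[ℚ] L) (Q ℓ)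
    with hD
  set w : ℝ → Nat.Primes → ℝ := fun s ℓ ↦ ((ℓ : ℕ) : ℝ) ^ (-s) with hwdef
  have hB := finite_primes_dvd_discr L
  have hw : ∀ᶠ s in 𝓝[>] (1 : ℝ), (∀ i, 0 ≤ w s i ∧ w s i ≤ 1) ∧ Summable (w s) := by
    filter_upwards [self_mem_nhdsWithin] with s hs
    have hs' : (1 : ℝ) < s := hs
    refine ⟨fun i ↦ ⟨Real.rpow_nonneg (Nat.cast_nonneg _) _, ?_⟩, ?_⟩
    · exact Real.rpow_le_one_of_one_le_of_nonpos (by exact_mod_cast i.2.one_lt.le) (by linarith)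
    · exact Nat.Primes.summable_rpow.mpr (by linarith)
  have hH : ∀ H : Subgroup (L ≃ₐ[ℚ] L), ∃ C : ℝ, ∀ᶠ s in 𝓝[>] (1 : ℝ),
      |∑' i, (conjCount (D i) H : ℝ) * w s i - Nat.card H * Real.log (1 / (s - 1))| ≤ C := by
    intro H
    set F : IntermediateField ℚ L := FixedPoints.intermediateField H with hF
    obtain ⟨C, hC⟩ := hAN F
    set M : ℝ := (Nat.card (L ≃ₐ[ℚ] L) : ℝ) + Nat.card H * Module.finrank ℚ F with hM
    refine ⟨hB.toFinset.card * M + Nat.card H * C, ?_⟩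
    filter_upwards [hC, hw, self_mem_nhdsWithin] with s hCs hws hs
    have hs' : (1 : ℝ) < s := hs
    have hs1 : Summable fun i ↦ (conjCount (D i) H : ℝ) * w s i := by
      refine Summable.of_nonneg_of_le (fun i ↦ mul_nonneg (Nat.cast_nonneg _) (hws.1 i).1)
        (fun i ↦ ?_) (hws.2.mul_left (Nat.card (L ≃ₐ[ℚ] L) : ℝ))
      exact mul_le_mul_of_nonneg_right (by exact_mod_cast conjCount_le _ _) (hws.1 i).1
    have hs2 : Summable fun i : Nat.Primes ↦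
        (Nat.card H : ℝ) * ((degOneCount F (i : ℕ) : ℝ) * w s i) := (hsum F s hs').mul_left _
    have hdiff : ∑' i, (conjCount (D i) H : ℝ) * w s i - Nat.card H * degOneSum F s =
        ∑ i ∈ hB.toFinset, ((conjCount (D i) H : ℝ) * w s i -
          (Nat.card H : ℝ) * ((degOneCount F (i : ℕ) : ℝ) * w s i)) := by
      unfold degOneSum
      rw [← tsum_mul_left, ← hs1.tsum_sub hs2]
      refine tsum_eq_sum fun i hi ↦ ?_
      have hi' : ¬ (((i : ℕ) : ℤ) ∣ discr L) := by simpa using hi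
      have := hALG H (i : ℕ) i.2 hi' (Q i) (hQm i)
      have h2 : (conjCount (D i) H : ℝ) = Nat.card H * degOneCount F (i : ℕ) := by
        rw [hD, ← this]; push_cast; rfl
      rw [h2]; ring
    have hbound : |∑ i ∈ hB.toFinset, ((conjCount (D i) H : ℝ) * w s i -
          (Nat.card H : ℝ) * ((degOneCount F (i : ℕ) : ℝ) * w s i))| ≤ hB.toFinset.card * M := by
      refine (Finset.abs_sum_le_sum_abs _ _).trans ?_
      rw [← nsmul_eq_mul]
      refine Finset.sum_le_card_nsmul _ _ _ fun i _ ↦ ?_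
      have h0 := (hws.1 i).1
      have h1 := (hws.1 i).2
      have ha : (conjCount (D i) H : ℝ) * w s i ≤ Nat.card (L ≃ₐ[ℚ] L) := by
        calc _ ≤ (Nat.card (L ≃ₐ[ℚ] L) : ℝ) * 1 :=
              mul_le_mul (by exact_mod_cast conjCount_le _ _) h1 h0 (Nat.cast_nonneg _)
          _ = _ := mul_one _
      have ha0 : 0 ≤ (conjCount (D i) H : ℝ) * w s i := mul_nonneg (Nat.cast_nonneg _) h0
      have hb : (Nat.card H : ℝ) * ((degOneCount F (i : ℕ) : ℝ) * w s i) ≤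
          Nat.card H * Module.finrank ℚ F := by
        refine mul_le_mul_of_nonneg_left ?_ (Nat.cast_nonneg _)
        calc _ ≤ (Module.finrank ℚ F : ℝ) * 1 :=
              mul_le_mul (by exact_mod_cast hle F i i.2) h1 h0 (Nat.cast_nonneg _)
          _ = _ := mul_one _
      have hb0 : 0 ≤ (Nat.card H : ℝ) * ((degOneCount F (i : ℕ) : ℝ) * w s i) :=
        mul_nonneg (Nat.cast_nonneg _) (mul_nonneg (Nat.cast_nonneg _) h0)
      rw [abs_le]
      constructor <;> rw [hM] <;> linarith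
    have hrw : ∑' i, (conjCount (D i) H : ℝ) * w s i - Nat.card H * Real.log (1 / (s - 1)) =
        (∑' i, (conjCount (D i) H : ℝ) * w s i - Nat.card H * degOneSum F s) +
          Nat.card H * (degOneSum F s - Real.log (1 / (s - 1))) := by ring
    rw [hrw]
    refine (abs_add_le _ _).trans (add_le_add (hdiff ▸ hbound) ?_)
    rw [abs_mul, Nat.abs_cast]
    exact mul_le_mul_of_nonneg_left hCs (Nat.cast_nonneg _)
  have hTfin : ({ℓ : Nat.Primes | (ℓ : ℕ) ∈ T} ∪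
      {ℓ : Nat.Primes | ((ℓ : ℕ) : ℤ) ∣ discr L}).Finite := by
    refine Set.Finite.union ?_ hB
    refine Set.Finite.of_finite_image (f := fun ℓ : Nat.Primes ↦ (ℓ : ℕ))
      ((Finset.finite_toSet T).subset ?_) (fun a _ b _ h ↦ Subtype.ext h)
    rintro _ ⟨ℓ, hℓ, rfl⟩
    exact hℓ
  obtain ⟨ℓ, hℓ, g, hg⟩ := abstract_density D w (fun s ↦ Real.log (1 / (s - 1))) (𝓝[>] (1 : ℝ))
    hw tendsto_log_one_div_sub_one hH σ _ hTfin
  simp only [Set.mem_union, Set.mem_ofPred_eq, not_or] at hℓ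
  have := hQp ℓ
  refine ⟨ℓ, ℓ.2, hℓ.1, hℓ.2, g • Q ℓ, inferInstance, ?_, ?_⟩
  · have h1 : g • ((ℓ : ℕ) : 𝓞 L) ∈ g • Q ℓ := smul_mem_pointwise_smul_iff.mpr (hQm ℓ)
    have h2 : g • ((ℓ : ℕ) : 𝓞 L) = ((ℓ : ℕ) : 𝓞 L) :=
      map_natCast (MulSemiringAction.toRingHom (L ≃ₐ[ℚ] L) (𝓞 L) g) _
    rwa [h2] at h1
  · rw [MulAction.stabilizer_smul_eq_stabilizer_map_conj]
    exact hg

end Fermat.Agent.Lib.WeakChebotarev
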